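/-
Flat44 (helper44): closure properties of "the Galois module `M` is the generic fibre of a finite flat
commutative group scheme over `ℤ_(p)`" (the existential clause of `GaloisRepAdic.IsFlatAt` and of S19).

`HasFlatModel p M act` is that clause verbatim, for an abstract additive group `M` with a map
`act : Gal(ℚ̄/ℚ) → M → M`.
-/
import Mathlib
import Fermat.Prelude.Def_GaloisRep_Flat

set_option autoImplicit false

noncomputable section

namespace Fermat.Agent.Flat44

/-- `ℚ̄`. -/
abbrev Qb : Type := AlgebraicClosure ℚ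

/-- `Gal(ℚ̄/ℚ)`. -/
abbrev GQ : Type := AlgebraicClosure ℚ ≃ₐ[ℚ] AlgebraicClosure ℚ

/-- `ℤ_(p)` as a subring of `ℚ`. -/
abbrev Zp (p : ℕ) : Subring ℚ := GaloisRep.ratLocalizedAt p

/-- The additive group `M` with the operators `act σ` is, equivariantly, the group of `ℚ̄`-points of a
finite flat commutative (cocommutative Hopf algebra) group scheme over `ℤ_(p)`. -/
def HasFlatModel (p : ℕ) (M : Type) [AddCommGroup M] (act : GQ → M → M) : Prop :=
  ∃ (H : Type) (_ : CommRing H) (_ : HopfAlgebra (GaloisRep.ratLocalizedAt p) H),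
    Module.Finite (GaloisRep.ratLocalizedAt p) H ∧
    Module.Flat (GaloisRep.ratLocalizedAt p) H ∧
    Coalgebra.IsCocomm (GaloisRep.ratLocalizedAt p) H ∧
    ∃ e : WithConv (H →ₐ[GaloisRep.ratLocalizedAt p] AlgebraicClosure ℚ) ≃ M,
      (∀ f g : WithConv (H →ₐ[GaloisRep.ratLocalizedAt p] AlgebraicClosure ℚ),
        e (f * g) = e f + e g) ∧
      ∀ (σ : AlgebraicClosure ℚ ≃ₐ[ℚ] AlgebraicClosure ℚ)
        (f g : WithConv (H →ₐ[GaloisRep.ratLocalizedAt p] AlgebraicClosure ℚ)),
        (∀ h : H, g h = σ (f h)) → e g = act σ (e f)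

/-- `IsFlatAt` is `HasFlatModel` for all finite quotients `V / I V`. -/
theorem isFlatAt_iff {A : Type} [CommRing A] [IsLocalRing A] (ρ : GaloisRepAdic A) (p : ℕ) :
    ρ.IsFlatAt p ↔ Finite (IsLocalRing.ResidueField A) ∧ ∀ I : Ideal A, Finite (A ⧸ I) →
      HasFlatModel p (ρ.V ⧸ (I • (⊤ : Submodule A ρ.V))) (fun σ => ρ.levelAction I σ) :=
  Iff.rfl

end Fermat.Agent.Flat44
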