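/-
Flat44 (helper44): basic facts on `ℤ_(p) = GaloisRep.ratLocalizedAt p ⊂ ℚ` and on `ℚ̄`:
principal ideal domain, fraction field `ℚ`, injectivity into `ℚ̄`, and
"Galois-fixed + integral over `ℤ_(p)` ⇒ in `ℤ_(p)`".
-/
import Mathlib
import Fermat.Agent.Flat44.Defs

set_option autoImplicit false

noncomputable section

namespace Fermat.Agent.Flat44

variable (p : ℕ)

theorem intCast_mem_Zp (n : ℤ) : (n : ℚ) ∈ Zp p := by
  show ((n : ℚ)).den.Coprime p
  simp

/-- `ℤ_(p)` is a principal ideal ring (for every `p`, prime or not). -/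
instance instIsPrincipalIdealRingZp : IsPrincipalIdealRing (Zp p) := by
  refine ⟨fun I => ?_⟩
  -- the ideal of `ℤ` of integers lying in `I`
  let f : ℤ →+* Zp p := Int.castRingHom (Zp p)
  let J : Ideal ℤ := I.comap f
  obtain ⟨n, hn⟩ := (inferInstance : IsPrincipalIdealRing ℤ).principal J
  refine ⟨⟨f n, ?_⟩⟩
  apply le_antisymm
  · intro x hx
    -- `x = a / b`, `b` coprime to `p`, so `a = b x ∈ I ∩ ℤ`
    have hxd : ((x : ℚ).den : ℚ) ∈ Zp p := by exact_mod_cast intCast_mem_Zp p ((x : ℚ).den : ℤ)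
    have hden : (x : ℚ).den.Coprime p := x.2
    let d : Zp p := ⟨((x : ℚ).den : ℚ), hxd⟩
    have hdx : d * x = f (x : ℚ).num := by
      apply Subtype.ext
      show ((x : ℚ).den : ℚ) * (x : ℚ) = ((f (x : ℚ).num : Zp p) : ℚ)
      have : ((f (x : ℚ).num : Zp p) : ℚ) = ((x : ℚ).num : ℚ) := by simp [f]
      rw [this, mul_comm]
      exact Rat.mul_den_eq_num (x : ℚ)
    have hnum : (x : ℚ).num ∈ J := by
      show f (x : ℚ).num ∈ I
      rw [← hdx]
      exact I.mul_mem_left _ hx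
    rw [hn, Submodule.mem_span_singleton] at hnum
    obtain ⟨c, hc⟩ := hnum
    -- `1 / d ∈ ℤ_(p)`
    have hinv : ((((x : ℚ).den : ℚ))⁻¹) ∈ Zp p := by
      show ((((x : ℚ).den : ℚ))⁻¹).den.Coprime p
      have h1 : ((((x : ℚ).den : ℚ))⁻¹) = Rat.divInt 1 ((x : ℚ).den : ℤ) := by
        rw [Rat.divInt_eq_div]; simp
      have h2 : (Rat.divInt 1 ((x : ℚ).den : ℤ)).den ∣ (x : ℚ).den := by
        have := Rat.den_dvd 1 ((x : ℚ).den : ℤ)
        exact_mod_cast this
      rw [h1]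
      exact Nat.Coprime.coprime_dvd_left h2 hden
    let dinv : Zp p := ⟨(((x : ℚ).den : ℚ))⁻¹, hinv⟩
    have hdd : dinv * d = 1 := by
      apply Subtype.ext
      show (((x : ℚ).den : ℚ))⁻¹ * ((x : ℚ).den : ℚ) = 1
      exact inv_mul_cancel₀ (by exact_mod_cast (x : ℚ).den_nz)
    rw [Submodule.mem_span_singleton]
    refine ⟨dinv * f c, ?_⟩
    have : x = dinv * (d * x) := by rw [← mul_assoc, hdd, one_mul]
    rw [this, hdx, ← hc]
    simp only [smul_eq_mul, map_mul]
    ring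
  · rw [Submodule.span_le, Set.singleton_subset_iff]
    have : n ∈ J := by rw [hn]; exact Submodule.mem_span_singleton_self n
    exact this

theorem algebraMap_Zp_rat_injective : Function.Injective (algebraMap (Zp p) ℚ) :=
  Subtype.val_injective

theorem algebraMap_Zp_Qb_injective : Function.Injective (algebraMap (Zp p) Qb) := by
  rw [IsScalarTower.algebraMap_eq (Zp p) ℚ Qb]
  exact (algebraMap ℚ Qb).injective.comp (algebraMap_Zp_rat_injective p)

instance instFaithfulSMulZpRat : FaithfulSMul (Zp p) ℚ :=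
  (faithfulSMul_iff_algebraMap_injective _ _).mpr (algebraMap_Zp_rat_injective p)

instance instFaithfulSMulZpQb : FaithfulSMul (Zp p) Qb :=
  (faithfulSMul_iff_algebraMap_injective _ _).mpr (algebraMap_Zp_Qb_injective p)

/-- `ℚ` is the fraction field of `ℤ_(p)`. -/
instance instIsFractionRingZp : IsFractionRing (Zp p) ℚ := by
  refine IsFractionRing.of_field (Zp p) ℚ fun z => ?_
  refine ⟨⟨(z.num : ℚ), intCast_mem_Zp p z.num⟩, ⟨((z.den : ℤ) : ℚ), intCast_mem_Zp p z.den⟩, ?_⟩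
  show z = (z.num : ℚ) / ((z.den : ℤ) : ℚ)
  simp [Rat.num_div_den]

theorem isAlgClosure_Qb : IsAlgClosure ℚ Qb := by
  have h : (DivisionRing.toRatAlgebra : Algebra ℚ Qb) = AlgebraicClosure.instAlgebra ℚ :=
    Subsingleton.elim _ _
  rw [h]
  infer_instance

theorem isGalois_Qb : IsGalois ℚ Qb :=
  haveI := isAlgClosure_Qb
  IsAlgClosure.isGalois ℚ Qb

/-- An element of `ℚ̄` fixed by `Gal(ℚ̄/ℚ)` and integral over `ℤ_(p)` lies in `ℤ_(p)`. -/
theorem mem_range_of_fixed_of_isIntegral (x : Qb) (hfix : ∀ σ : GQ, σ x = x)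
    (hint : IsIntegral (Zp p) x) : ∃ r : Zp p, algebraMap (Zp p) Qb r = x := by
  have := isGalois_Qb
  obtain ⟨q, rfl⟩ := (InfiniteGalois.mem_range_algebraMap_iff_fixed (k := ℚ) (K := Qb) x).mpr hfix
  have hq : IsIntegral (Zp p) q := IsIntegral.tower_bot (algebraMap ℚ Qb).injective hint
  obtain ⟨r, hr⟩ := IsIntegrallyClosed.algebraMap_eq_of_integral hq
  exact ⟨r, by rw [IsScalarTower.algebraMap_apply (Zp p) ℚ Qb, hr]⟩

end Fermat.Agent.Flat44
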