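/-
Flat44 (helper44): linear independence lemmas for Galois-equivariant functions `X → ℚ̄`.

* `linearIndependent_Qb_of_rat`: an Artin-type lemma: `ℚ`-linearly independent equivariant functions
  are `ℚ̄`-linearly independent.
* `linearIndependent_Qb_of_Zp`: the same starting from `ℤ_(p)`.
* `linearIndependent_prodFun`: products `f i x * g j y` of two `ℚ̄`-independent families are
  independent.
* `injective_of_linearIndependent_basis`: a linear map sending a basis to an independent family is
  injective.
-/
import Mathlib
import Fermat.Agent.Flat44.Base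

set_option autoImplicit false

noncomputable section

namespace Fermat.Agent.Flat44

section Artin

variable {X : Type} (act : GQ → X → X)

/-- If `∑ c i • b i = 0` for equivariant functions `b i`, then `∑ σ (c i) • b i = 0`. -/
theorem sum_map_smul_eq_zero {ι : Type} (b : ι → X → Qb)
    (hb : ∀ i (σ : GQ) x, b i (act σ x) = σ (b i x))
    (hsurj : ∀ σ : GQ, Function.Surjective (act σ))
    (s : Finset ι) (c : ι → Qb) (h : ∑ i ∈ s, c i • b i = 0) (σ : GQ) :
    ∑ i ∈ s, σ (c i) • b i = 0 := by
  funext y
  obtain ⟨x, rfl⟩ := hsurj σ y
  have h1 := congrFun h x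
  simp only [Finset.sum_apply, Pi.smul_apply, smul_eq_mul, Pi.zero_apply] at h1 ⊢
  have h2 := congrArg σ h1
  rw [map_sum, map_zero] at h2
  rw [← h2]
  refine Finset.sum_congr rfl fun i _ => ?_
  rw [map_mul, hb]

/-- **Artin-type lemma.** `ℚ`-linearly independent Galois-equivariant functions `X → ℚ̄` are
`ℚ̄`-linearly independent. -/
theorem linearIndependent_Qb_of_rat {ι : Type} (b : ι → X → Qb)
    (hb : ∀ i (σ : GQ) x, b i (act σ x) = σ (b i x))
    (hsurj : ∀ σ : GQ, Function.Surjective (act σ))
    (hli : LinearIndependent ℚ b) : LinearIndependent Qb b := by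
  classical
  have := isGalois_Qb
  rw [linearIndependent_iff']
  intro s
  induction s using Finset.induction_on with
  | empty => intro g _ i hi; simp at hi
  | insert a t hat ih =>
    intro g hg
    by_cases hga : g a = 0
    · -- reduce to `t`
      rw [Finset.sum_insert hat, hga, zero_smul, zero_add] at hg
      intro i hi
      rcases Finset.mem_insert.mp hi with rfl | hi
      · exact hga
      · exact ih g hg i hi
    · exfalso
      -- normalise `g a = 1`
      set h : ι → Qb := fun i => (g a)⁻¹ * g i with hh
      have hha : h a = 1 := inv_mul_cancel₀ hga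
      have hsum : ∑ i ∈ insert a t, h i • b i = 0 := by
        have : ∑ i ∈ insert a t, h i • b i = (g a)⁻¹ • ∑ i ∈ insert a t, g i • b i := by
          rw [Finset.smul_sum]
          refine Finset.sum_congr rfl fun i _ => ?_
          rw [hh, mul_smul]
        rw [this, hg, smul_zero]
      -- every `h i` is Galois-fixed
      have hfix : ∀ i ∈ t, ∀ σ : GQ, σ (h i) = h i := by
        intro i hi σ
        have h1 := sum_map_smul_eq_zero act b hb hsurj _ h hsum σ
        have h2 : ∑ i ∈ t, (σ (h i) - h i) • b i = 0 := by
          have h3 : ∑ i ∈ insert a t, (σ (h i) - h i) • b i = 0 := by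
            simp only [sub_smul, Finset.sum_sub_distrib, h1, hsum, sub_zero]
          rw [Finset.sum_insert hat, hha, map_one, sub_self, zero_smul, zero_add] at h3
          exact h3
        exact sub_eq_zero.mp (ih _ h2 i hi)
      -- hence rational
      have hrat : ∀ i ∈ insert a t, ∃ q : ℚ, algebraMap ℚ Qb q = h i := by
        intro i hi
        rcases Finset.mem_insert.mp hi with rfl | hi
        · exact ⟨1, by rw [map_one, hha]⟩
        · exact (InfiniteGalois.mem_range_algebraMap_iff_fixed (k := ℚ) (K := Qb) (h i)).mpr
            (hfix i hi)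
      choose! q hq using hrat
      have hsumq : ∑ i ∈ insert a t, q i • b i = 0 := by
        rw [← hsum]
        refine Finset.sum_congr rfl fun i hi => ?_
        rw [← hq i hi, algebraMap_smul]
      have hqa := linearIndependent_iff'.mp hli _ q hsumq a (Finset.mem_insert_self a t)
      have : algebraMap ℚ Qb (q a) = 1 := by rw [hq a (Finset.mem_insert_self a t), hha]
      rw [hqa, map_zero] at this
      exact zero_ne_one this

/-- The same over `ℤ_(p)`. -/
theorem linearIndependent_Qb_of_Zp (p : ℕ) {ι : Type} (b : ι → X → Qb)
    (hb : ∀ i (σ : GQ) x, b i (act σ x) = σ (b i x))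
    (hsurj : ∀ σ : GQ, Function.Surjective (act σ))
    (hli : LinearIndependent (Zp p) b) : LinearIndependent Qb b :=
  linearIndependent_Qb_of_rat act b hb hsurj
    ((LinearIndependent.iff_fractionRing (Zp p) ℚ).mp hli)

end Artin

section Prod

variable {X Y : Type}

/-- Products of two independent families of functions are independent. -/
theorem linearIndependent_prodFun {ι κ : Type} [Fintype ι] [Fintype κ]
    (f : ι → X → Qb) (g : κ → Y → Qb)
    (hf : LinearIndependent Qb f) (hg : LinearIndependent Qb g) :
    LinearIndependent Qb (fun ij : ι × κ => fun xy : X × Y => f ij.1 xy.1 * g ij.2 xy.2) := by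
  classical
  rw [Fintype.linearIndependent_iff] at hf hg ⊢
  intro c hc
  -- for fixed `y`, the coefficients `∑ j, c (i, j) * g j y` vanish
  have h1 : ∀ (y : Y) (i : ι), ∑ j, c (i, j) * g j y = 0 := by
    intro y
    apply hf
    funext x
    have := congrFun hc (x, y)
    simp only [Finset.sum_apply, Pi.smul_apply, smul_eq_mul, Pi.zero_apply] at this ⊢
    rw [← this, Fintype.sum_prod_type]
    refine Finset.sum_congr rfl fun i _ => ?_
    rw [Finset.sum_mul]
    refine Finset.sum_congr rfl fun j _ => ?_
    ring
  rintro ⟨i, j⟩
  refine hg (fun j => c (i, j)) ?_ j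
  funext y
  simp only [Finset.sum_apply, Pi.smul_apply, smul_eq_mul, Pi.zero_apply]
  exact h1 y i

end Prod

section Restrict

/-- `ℚ̄`-linearly independent functions are `ℤ_(p)`-linearly independent. -/
theorem linearIndependent_Zp_of_Qb (p : ℕ) {X ι : Type} (f : ι → X → Qb)
    (h : LinearIndependent Qb f) : LinearIndependent (Zp p) f := by
  rw [linearIndependent_iff'] at h ⊢
  intro s g hg i hi
  have h1 := h s (fun i => algebraMap (Zp p) Qb (g i)) ?_ i hi
  · exact (map_eq_zero_iff _ (algebraMap_Zp_Qb_injective p)).mp h1
  · rw [← hg]
    refine Finset.sum_congr rfl fun j _ => ?_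
    funext x
    simp [Algebra.smul_def]

end Restrict

section Inj

/-- A linear map sending a basis to a linearly independent family is injective. -/
theorem injective_of_linearIndependent_basis {R N W ι : Type*} [CommSemiring R] [AddCommMonoid N]
    [Module R N] [AddCommMonoid W] [Module R W] (φ : N →ₗ[R] W) (b : Module.Basis ι R N)
    (h : LinearIndependent R (fun i => φ (b i))) : Function.Injective φ := by
  have h1 := b.injective_constr_of_linearIndependent (R₂ := R) h
  have h2 : b.constr R (fun i => φ (b i)) = φ := by
    apply b.ext
    intro i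
    rw [Module.Basis.constr_basis]
  rwa [h2] at h1

end Inj

end Fermat.Agent.Flat44
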