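/-
Flat44 (helper44): "function orders".

A `FunOrder p M act` is a `ℤ_(p)`-subalgebra `B` of the algebra of functions `M → ℚ̄`, finite as a
module, consisting of Galois-equivariant functions, separating the points of `M`, and stable under
the comultiplication `b ↦ ((x, y) ↦ b (x + y))` (written as a finite sum `∑ u i x * v i y`), the
antipode `b ↦ b ∘ neg` and with `b 0 ∈ ℤ_(p)`.

This is the concrete form of a Hopf order: `HasFlatModel p M act ↔ Nonempty (FunOrder p M act)`
(files `OfHopf`, `ToHopf`), and closure properties are proved on function orders.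
-/
import Mathlib
import Fermat.Agent.Flat44.Indep

set_option autoImplicit false

noncomputable section

namespace Fermat.Agent.Flat44

/-- Pull back functions along a map, as an algebra homomorphism. -/
def pullAlg (R : Type) [CommSemiring R] [Algebra R Qb] {X Y : Type} (f : Y → X) :
    (X → Qb) →ₐ[R] (Y → Qb) where
  toFun b := fun y => b (f y)
  map_one' := rfl
  map_mul' _ _ := rfl
  map_zero' := rfl
  map_add' _ _ := rfl
  commutes' _ := rfl

@[simp] theorem pullAlg_apply (R : Type) [CommSemiring R] [Algebra R Qb] {X Y : Type} (f : Y → X)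
    (b : X → Qb) (y : Y) : pullAlg R f b y = b (f y) := rfl

/-- A function order on `(M, act)`: see the header. -/
structure FunOrder (p : ℕ) (M : Type) [AddCommGroup M] (act : GQ → M → M) where
  /-- the order -/
  B : Subalgebra (Zp p) (M → Qb)
  fg : Module.Finite (Zp p) B
  equivariant : ∀ b ∈ B, ∀ (σ : GQ) (x : M), b (act σ x) = σ (b x)
  separates : ∀ x y : M, (∀ b ∈ B, b x = b y) → x = y
  comul_mem : ∀ b ∈ B, ∃ (ι : Type) (_ : Fintype ι) (u v : ι → M → Qb),
    (∀ i, u i ∈ B) ∧ (∀ i, v i ∈ B) ∧ ∀ x y, b (x + y) = ∑ i, u i x * v i y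
  neg_mem : ∀ b ∈ B, (fun x => b (-x)) ∈ B
  zero_mem : ∀ b ∈ B, ∃ r : Zp p, algebraMap (Zp p) Qb r = b 0

namespace FunOrder

variable {p : ℕ} {M : Type} [AddCommGroup M] {act : GQ → M → M} (F : FunOrder p M act)

instance : Module.Finite (Zp p) F.B := F.fg

include F

theorem act_one (x : M) : act 1 x = x :=
  F.separates _ _ fun b hb => by rw [F.equivariant b hb]; rfl

theorem act_mul (σ τ : GQ) (x : M) : act (σ * τ) x = act σ (act τ x) :=
  F.separates _ _ fun b hb => by
    rw [F.equivariant b hb, F.equivariant b hb, F.equivariant b hb]; rfl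

theorem act_surjective (σ : GQ) : Function.Surjective (act σ) := fun x =>
  ⟨act σ⁻¹ x, by rw [← F.act_mul, mul_inv_cancel, F.act_one]⟩

theorem act_injective (σ : GQ) : Function.Injective (act σ) := fun x y h => by
  have := congrArg (act σ⁻¹) h
  rwa [← F.act_mul, ← F.act_mul, inv_mul_cancel, F.act_one, F.act_one] at this

theorem act_add (σ : GQ) (x y : M) : act σ (x + y) = act σ x + act σ y :=
  F.separates _ _ fun b hb => by
    obtain ⟨ι, _, u, v, hu, hv, huv⟩ := F.comul_mem b hb
    rw [F.equivariant b hb, huv, huv, map_sum]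
    refine Finset.sum_congr rfl fun i _ => ?_
    rw [map_mul, F.equivariant _ (hu i), F.equivariant _ (hv i)]

theorem act_zero (σ : GQ) : act σ 0 = 0 := by
  have h := F.act_add σ 0 0
  rw [add_zero] at h
  exact left_eq_add.mp h

theorem act_neg (σ : GQ) (x : M) : act σ (-x) = -act σ x := by
  have h := F.act_add σ x (-x)
  rw [add_neg_cancel, F.act_zero] at h
  exact eq_neg_of_add_eq_zero_right h.symm

end FunOrder

end Fermat.Agent.Flat44
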