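/-
Flat44 (helper44): from a Hopf algebra to a function order:
`HasFlatModel p M act → Nonempty (FunOrder p M act)` (Gelfand transform).
-/
import Mathlib
import Fermat.Agent.Flat44.FunOrder

set_option autoImplicit false
set_option synthInstance.maxHeartbeats 200000

noncomputable section

namespace Fermat.Agent.Flat44

open scoped TensorProduct
open Coalgebra

section

variable {p : ℕ} {H : Type} [CommRing H] [HopfAlgebra (Zp p) H]

/-- The convolution product of two points, evaluated through a representation of `comul c`. -/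
theorem convMul_apply_repr (f g : WithConv (H →ₐ[Zp p] Qb)) (c : H) :
    (f * g) c = ∑ i ∈ (ℛ (Zp p) c).index, f ((ℛ (Zp p) c).left i) * g ((ℛ (Zp p) c).right i) := by
  rw [AlgHom.convMul_apply, ← (ℛ (Zp p) c).eq, map_sum]
  refine Finset.sum_congr rfl fun i _ => ?_
  rw [Algebra.TensorProduct.lift_tmul]

/-- `f ∘ S` is a right convolution inverse of `f`. -/
theorem convMul_comp_antipode (f : WithConv (H →ₐ[Zp p] Qb)) :
    f * WithConv.toConv (f.ofConv.comp (HopfAlgebra.antipodeAlgHom (Zp p) H)) = 1 := by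
  apply WithConv.ext
  refine AlgHom.ext fun c => ?_
  have h1 : (f * WithConv.toConv (f.ofConv.comp (HopfAlgebra.antipodeAlgHom (Zp p) H))).ofConv c
      = (f * WithConv.toConv (f.ofConv.comp (HopfAlgebra.antipodeAlgHom (Zp p) H))) c := rfl
  have h2 : (1 : WithConv (H →ₐ[Zp p] Qb)).ofConv c = (1 : WithConv (H →ₐ[Zp p] Qb)) c := rfl
  rw [h1, h2, convMul_apply_repr, AlgHom.convOne_apply]
  have h3 := HopfAlgebra.sum_mul_antipode_eq_algebraMap_counit (ℛ (Zp p) c)
  have h4 := congrArg f.ofConv h3
  rw [map_sum, AlgHom.commutes] at h4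
  rw [← h4]
  refine Finset.sum_congr rfl fun i _ => ?_
  rw [map_mul]
  rfl

end

/-- **From a Hopf algebra to a function order.** -/
theorem funOrder_of_hasFlatModel {p : ℕ} {M : Type} [AddCommGroup M] {act : GQ → M → M}
    (h : HasFlatModel p M act) : Nonempty (FunOrder p M act) := by
  obtain ⟨H, _, _, hfin, _, _, e, hmul, hact⟩ := h
  -- the Gelfand transform
  let γ : H →ₐ[Zp p] (M → Qb) := AlgHom.pi (fun x => (e.symm x).ofConv)
  have hγ : ∀ (c : H) (x : M), γ c x = (e.symm x) c := fun c x => rfl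
  -- `e.symm` is a monoid hom
  have hsymm_add : ∀ x y : M, e.symm (x + y) = e.symm x * e.symm y := by
    intro x y
    apply e.injective
    rw [hmul, e.apply_symm_apply, e.apply_symm_apply, e.apply_symm_apply]
  have he_one : e 1 = 0 := by
    have := hmul 1 1
    rw [mul_one] at this
    exact left_eq_add.mp this
  have hsymm_zero : e.symm 0 = 1 := by
    apply e.injective
    rw [e.apply_symm_apply, he_one]
  have hsymm_neg : ∀ x : M, e.symm (-x) =
      WithConv.toConv ((e.symm x).ofConv.comp (HopfAlgebra.antipodeAlgHom (Zp p) H)) := by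
    intro x
    apply e.injective
    have h1 := hmul (e.symm x)
      (WithConv.toConv ((e.symm x).ofConv.comp (HopfAlgebra.antipodeAlgHom (Zp p) H)))
    rw [convMul_comp_antipode, he_one, e.apply_symm_apply] at h1
    rw [e.apply_symm_apply]
    exact neg_eq_of_add_eq_zero_right h1.symm
  refine ⟨{
    B := γ.range
    fg := Module.Finite.of_surjective γ.rangeRestrict.toLinearMap γ.rangeRestrict_surjective
    equivariant := ?_
    separates := ?_
    comul_mem := ?_
    neg_mem := ?_
    zero_mem := ?_ }⟩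
  · rintro _ ⟨c, rfl⟩ σ x
    let σ' : Qb →ₐ[Zp p] Qb := (σ : Qb →ₐ[ℚ] Qb).restrictScalars (Zp p)
    have h1 := hact σ (e.symm x) (WithConv.toConv (σ'.comp (e.symm x).ofConv)) (fun _ => rfl)
    rw [e.apply_symm_apply] at h1
    have h2 : e.symm (act σ x) = WithConv.toConv (σ'.comp (e.symm x).ofConv) := by
      rw [← h1, e.symm_apply_apply]
    show γ c (act σ x) = σ (γ c x)
    rw [hγ, hγ, h2]
    rfl
  · intro x y hxy
    apply e.symm.injective
    apply WithConv.ext
    refine AlgHom.ext fun c => ?_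
    exact hxy (γ c) ⟨c, rfl⟩
  · rintro _ ⟨c, rfl⟩
    refine ⟨{i // i ∈ (ℛ (Zp p) c).index}, inferInstance,
      fun i => γ ((ℛ (Zp p) c).left i), fun i => γ ((ℛ (Zp p) c).right i),
      fun i => ⟨_, rfl⟩, fun i => ⟨_, rfl⟩, fun x y => ?_⟩
    show γ c (x + y) = _
    rw [hγ, hsymm_add, convMul_apply_repr, ← Finset.sum_coe_sort]
    rfl
  · rintro _ ⟨c, rfl⟩
    refine ⟨HopfAlgebra.antipode (Zp p) c, ?_⟩
    funext x
    show γ (HopfAlgebra.antipode (Zp p) c) x = γ c (-x)
    rw [hγ, hγ, hsymm_neg]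
    rfl
  · rintro _ ⟨c, rfl⟩
    refine ⟨Coalgebra.counit c, ?_⟩
    show _ = γ c 0
    rw [hγ, hsymm_zero, AlgHom.convOne_apply]

end Fermat.Agent.Flat44
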