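/-
Flat44 (helper44): function orders restrict to Galois-stable subgroups, and transport along
equivariant isomorphisms.
-/
import Mathlib
import Fermat.Agent.Flat44.FunOrder

set_option autoImplicit false
set_option synthInstance.maxHeartbeats 200000

noncomputable section

namespace Fermat.Agent.Flat44

/-- Transport along an equivariant additive isomorphism. -/
theorem HasFlatModel.of_equiv {p : ℕ} {M M' : Type} [AddCommGroup M] [AddCommGroup M']
    {act : GQ → M → M} {act' : GQ → M' → M'} (h : HasFlatModel p M act) (φ : M ≃+ M')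
    (hφ : ∀ σ x, φ (act σ x) = act' σ (φ x)) : HasFlatModel p M' act' := by
  obtain ⟨H, i1, i2, hfin, hflat, hcc, e, hmul, hact⟩ := h
  refine ⟨H, i1, i2, hfin, hflat, hcc, e.trans φ.toEquiv, fun f g => ?_, fun σ f g hfg => ?_⟩
  · show φ (e (f * g)) = φ (e f) + φ (e g)
    rw [hmul, map_add]
  · show φ (e g) = act' σ (φ (e f))
    rw [hact σ f g hfg, hφ]

namespace FunOrder

variable {p : ℕ} {M : Type} [AddCommGroup M] {act : GQ → M → M}

/-- Restriction of a function order to a stable subgroup. -/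
def sub (F : FunOrder p M act) (S : AddSubgroup M) (acts : GQ → S → S)
    (hS : ∀ σ (x : S), ((acts σ x : S) : M) = act σ (x : M)) : FunOrder p S acts where
  B := F.B.map (pullAlg (Zp p) (Subtype.val : S → M))
  fg := by
    let f : F.B →ₐ[Zp p] ↥(F.B.map (pullAlg (Zp p) (Subtype.val : S → M))) :=
      ((pullAlg (Zp p) (Subtype.val : S → M)).comp F.B.val).codRestrict _
        (fun a => ⟨a, a.2, rfl⟩)
    refine Module.Finite.of_surjective f.toLinearMap ?_
    rintro ⟨_, b, hb, rfl⟩
    exact ⟨⟨b, hb⟩, rfl⟩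
  equivariant := by
    rintro _ ⟨b, hb, rfl⟩ σ x
    show b ((acts σ x : S) : M) = σ (b (x : M))
    rw [hS, F.equivariant b hb]
  separates := by
    intro x y h
    apply Subtype.ext
    exact F.separates _ _ fun b hb => h _ ⟨b, hb, rfl⟩
  comul_mem := by
    rintro _ ⟨b, hb, rfl⟩
    obtain ⟨ι, _, u, v, hu, hv, huv⟩ := F.comul_mem b hb
    exact ⟨ι, inferInstance, fun i => pullAlg (Zp p) Subtype.val (u i),
      fun i => pullAlg (Zp p) Subtype.val (v i), fun i => ⟨u i, hu i, rfl⟩,
      fun i => ⟨v i, hv i, rfl⟩, fun x y => huv x y⟩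
  neg_mem := by
    rintro _ ⟨b, hb, rfl⟩
    exact ⟨_, F.neg_mem b hb, rfl⟩
  zero_mem := by
    rintro _ ⟨b, hb, rfl⟩
    exact F.zero_mem b hb

end FunOrder

end Fermat.Agent.Flat44
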