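/-
Flat44 (helper44): from a function order to a Hopf algebra: `FunOrder p M act → HasFlatModel p M act`.
-/
import Mathlib
import Fermat.Agent.Flat44.FunOrder

set_option autoImplicit false
set_option synthInstance.maxHeartbeats 200000
noncomputable section
namespace Fermat.Agent.Flat44
open scoped TensorProduct

namespace FunOrder

variable {p : ℕ} {M : Type} [AddCommGroup M] {act : GQ → M → M} (F : FunOrder p M act)

instance instTFQb : Module.IsTorsionFree (Zp p) Qb :=
  Module.isTorsionFree_iff_algebraMap_injective.mpr (algebraMap_Zp_Qb_injective p)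

instance instTFB : Module.IsTorsionFree (Zp p) F.B := inferInstance

instance instFreeB : Module.Free (Zp p) F.B := Module.free_of_finite_type_torsion_free'

/-- index type of the chosen basis -/
abbrev I : Type := Module.Free.ChooseBasisIndex (Zp p) F.B

/-- the chosen basis of `B` -/
def basis : Module.Basis F.I (Zp p) F.B := Module.Free.chooseBasis (Zp p) F.B

/-- The basis of `B`, as functions, is `ℚ̄`-linearly independent. -/
theorem basis_linearIndependent_Qb :
    LinearIndependent Qb (fun i => ((F.basis i : F.B) : M → Qb)) := by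
  refine linearIndependent_Qb_of_Zp act p _ (fun i σ x => F.equivariant _ (F.basis i).2 σ x)
    F.act_surjective ?_
  exact F.basis.linearIndependent.map' F.B.toSubmodule.subtype (Submodule.ker_subtype _)

/-- `B ⊗ B → (M × M → ℚ̄)`, `a ⊗ a' ↦ ((x, y) ↦ a x * a' y)`. -/
def iota2 : F.B ⊗[Zp p] F.B →ₐ[Zp p] (M × M → Qb) :=
  Algebra.TensorProduct.lift ((pullAlg (Zp p) Prod.fst).comp F.B.val)
    ((pullAlg (Zp p) Prod.snd).comp F.B.val) (fun _ _ => Commute.all _ _)

@[simp] theorem iota2_tmul (a a' : F.B) (xy : M × M) :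
    F.iota2 (a ⊗ₜ a') xy = (a : M → Qb) xy.1 * (a' : M → Qb) xy.2 := by
  simp [iota2, Algebra.TensorProduct.lift_tmul]

theorem iota2_injective : Function.Injective F.iota2 := by
  have h := linearIndependent_Zp_of_Qb p _
    (linearIndependent_prodFun _ _ F.basis_linearIndependent_Qb F.basis_linearIndependent_Qb)
  have h' : (fun ij : F.I × F.I => F.iota2.toLinearMap ((F.basis.tensorProduct F.basis) ij)) =
      (fun ij : F.I × F.I => fun xy : M × M =>
        ((F.basis ij.1 : F.B) : M → Qb) xy.1 * ((F.basis ij.2 : F.B) : M → Qb) xy.2) := by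
    funext ⟨i, j⟩ xy
    rw [Module.Basis.tensorProduct_apply]
    exact F.iota2_tmul _ _ xy
  refine injective_of_linearIndependent_basis F.iota2.toLinearMap
    (F.basis.tensorProduct F.basis) ?_
  rw [h']
  exact h

/-- `(B ⊗ B) ⊗ B → ((M × M) × M → ℚ̄)`. -/
def iota3 : (F.B ⊗[Zp p] F.B) ⊗[Zp p] F.B →ₐ[Zp p] ((M × M) × M → Qb) :=
  Algebra.TensorProduct.lift ((pullAlg (Zp p) Prod.fst).comp F.iota2)
    ((pullAlg (Zp p) Prod.snd).comp F.B.val) (fun _ _ => Commute.all _ _)

@[simp] theorem iota3_tmul (t : F.B ⊗[Zp p] F.B) (a : F.B) (xyz : (M × M) × M) :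
    F.iota3 (t ⊗ₜ a) xyz = F.iota2 t xyz.1 * (a : M → Qb) xyz.2 := by
  simp [iota3, Algebra.TensorProduct.lift_tmul]

theorem iota3_injective : Function.Injective F.iota3 := by
  have h := linearIndependent_Zp_of_Qb p _
    (linearIndependent_prodFun _ _
      (linearIndependent_prodFun _ _ F.basis_linearIndependent_Qb F.basis_linearIndependent_Qb)
      F.basis_linearIndependent_Qb)
  have h' : (fun ijk : (F.I × F.I) × F.I =>
      F.iota3.toLinearMap (((F.basis.tensorProduct F.basis).tensorProduct F.basis) ijk)) =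
      (fun ijk : (F.I × F.I) × F.I => fun xyz : (M × M) × M =>
        (((F.basis ijk.1.1 : F.B) : M → Qb) xyz.1.1 * ((F.basis ijk.1.2 : F.B) : M → Qb) xyz.1.2) *
          ((F.basis ijk.2 : F.B) : M → Qb) xyz.2) := by
    funext ⟨⟨i, j⟩, k⟩ xyz
    rw [Module.Basis.tensorProduct_apply, Module.Basis.tensorProduct_apply]
    show F.iota3 ((F.basis i ⊗ₜ F.basis j) ⊗ₜ F.basis k) xyz = _
    rw [F.iota3_tmul, F.iota2_tmul]
  refine injective_of_linearIndependent_basis F.iota3.toLinearMap
    ((F.basis.tensorProduct F.basis).tensorProduct F.basis) ?_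
  rw [h']
  exact h

/-! ### Comultiplication and counit -/

/-- `b ↦ ((x, y) ↦ b (x + y))` -/
def addPull : F.B →ₐ[Zp p] (M × M → Qb) :=
  (pullAlg (Zp p) (fun xy : M × M => xy.1 + xy.2)).comp F.B.val

@[simp] theorem addPull_apply (a : F.B) (xy : M × M) :
    F.addPull a xy = (a : M → Qb) (xy.1 + xy.2) := rfl

theorem addPull_mem_range (a : F.B) : F.addPull a ∈ F.iota2.range := by
  obtain ⟨ι, _, u, v, hu, hv, huv⟩ := F.comul_mem a a.2
  refine ⟨∑ i, (⟨u i, hu i⟩ : F.B) ⊗ₜ[Zp p] (⟨v i, hv i⟩ : F.B), ?_⟩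
  show F.iota2 _ = _
  funext xy
  rw [map_sum, Finset.sum_apply, addPull_apply, huv]
  refine Finset.sum_congr rfl fun i _ => ?_
  exact F.iota2_tmul _ _ xy

/-- The comultiplication. -/
def comulHom : F.B →ₐ[Zp p] F.B ⊗[Zp p] F.B :=
  ((AlgEquiv.ofInjective F.iota2 F.iota2_injective).symm : F.iota2.range →ₐ[Zp p] _).comp
    (F.addPull.codRestrict F.iota2.range F.addPull_mem_range)

theorem iota2_comulHom (a : F.B) : F.iota2 (F.comulHom a) = F.addPull a := by
  have h := (AlgEquiv.ofInjective F.iota2 F.iota2_injective).apply_symm_apply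
    (F.addPull.codRestrict F.iota2.range F.addPull_mem_range a)
  exact congrArg Subtype.val h

theorem iota2_comulHom_apply (a : F.B) (xy : M × M) :
    F.iota2 (F.comulHom a) xy = (a : M → Qb) (xy.1 + xy.2) := by
  rw [iota2_comulHom, addPull_apply]

/-- evaluation at `0` -/
def evalZero : F.B →ₐ[Zp p] Qb := (Pi.evalAlgHom (Zp p) (fun _ : M => Qb) 0).comp F.B.val

@[simp] theorem evalZero_apply (a : F.B) : F.evalZero a = (a : M → Qb) 0 := rfl

theorem evalZero_mem_range (a : F.B) : F.evalZero a ∈ (Algebra.ofId (Zp p) Qb).range := by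
  obtain ⟨r, hr⟩ := F.zero_mem a a.2
  exact ⟨r, hr⟩

/-- The counit. -/
def counitHom : F.B →ₐ[Zp p] Zp p :=
  ((AlgEquiv.ofInjective (Algebra.ofId (Zp p) Qb) (algebraMap_Zp_Qb_injective p)).symm :
      (Algebra.ofId (Zp p) Qb).range →ₐ[Zp p] _).comp
    (F.evalZero.codRestrict _ F.evalZero_mem_range)

theorem algebraMap_counitHom (a : F.B) :
    algebraMap (Zp p) Qb (F.counitHom a) = (a : M → Qb) 0 := by
  have h := (AlgEquiv.ofInjective (Algebra.ofId (Zp p) Qb) (algebraMap_Zp_Qb_injective p)).apply_symm_apply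
    (F.evalZero.codRestrict _ F.evalZero_mem_range a)
  exact congrArg Subtype.val h

/-! ### Coassociativity -/

theorem iota3_map_comul (t : F.B ⊗[Zp p] F.B) (xyz : (M × M) × M) :
    F.iota3 (Algebra.TensorProduct.map F.comulHom (AlgHom.id (Zp p) F.B) t) xyz =
      F.iota2 t (xyz.1.1 + xyz.1.2, xyz.2) := by
  induction t using TensorProduct.induction_on with
  | zero => rw [map_zero, map_zero, map_zero]; rfl
  | tmul a a' =>
    rw [Algebra.TensorProduct.map_tmul, iota3_tmul, iota2_comulHom_apply, iota2_tmul]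
    rfl
  | add s t hs ht => rw [map_add, map_add, Pi.add_apply, hs, ht, map_add, Pi.add_apply]

theorem iota3_assoc_symm_tmul (a : F.B) (s : F.B ⊗[Zp p] F.B) (xyz : (M × M) × M) :
    F.iota3 ((Algebra.TensorProduct.assoc (Zp p) (Zp p) (Zp p) F.B F.B F.B).symm (a ⊗ₜ s)) xyz =
      (a : M → Qb) xyz.1.1 * F.iota2 s (xyz.1.2, xyz.2) := by
  induction s using TensorProduct.induction_on with
  | zero => rw [TensorProduct.tmul_zero, map_zero, map_zero, map_zero]; simp
  | tmul b c =>
    rw [Algebra.TensorProduct.assoc_symm_tmul, iota3_tmul, iota2_tmul, iota2_tmul, mul_assoc]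
  | add s t hs ht =>
    rw [TensorProduct.tmul_add, map_add, map_add, Pi.add_apply, hs, ht, map_add, Pi.add_apply,
      mul_add]

theorem iota3_assoc_symm_map_comul (t : F.B ⊗[Zp p] F.B) (xyz : (M × M) × M) :
    F.iota3 ((Algebra.TensorProduct.assoc (Zp p) (Zp p) (Zp p) F.B F.B F.B).symm
      (Algebra.TensorProduct.map (AlgHom.id (Zp p) F.B) F.comulHom t)) xyz =
      F.iota2 t (xyz.1.1, xyz.1.2 + xyz.2) := by
  induction t using TensorProduct.induction_on with
  | zero => rw [map_zero, map_zero, map_zero, map_zero]; rfl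
  | tmul a a' =>
    rw [Algebra.TensorProduct.map_tmul, iota3_assoc_symm_tmul, iota2_comulHom_apply, iota2_tmul]
    rfl
  | add s t hs ht => rw [map_add, map_add, map_add, Pi.add_apply, hs, ht, map_add, Pi.add_apply]

theorem comulHom_coassoc_apply (a : F.B) :
    (Algebra.TensorProduct.assoc (Zp p) (Zp p) (Zp p) F.B F.B F.B)
      (Algebra.TensorProduct.map F.comulHom (AlgHom.id (Zp p) F.B) (F.comulHom a))
      = Algebra.TensorProduct.map (AlgHom.id (Zp p) F.B) F.comulHom (F.comulHom a) := by
  apply (Algebra.TensorProduct.assoc (Zp p) (Zp p) (Zp p) F.B F.B F.B).symm.injective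
  rw [AlgEquiv.symm_apply_apply]
  apply F.iota3_injective
  funext xyz
  rw [iota3_map_comul, iota3_assoc_symm_map_comul, iota2_comulHom_apply, iota2_comulHom_apply,
    add_assoc]

theorem comulHom_coassoc :
    (Algebra.TensorProduct.assoc (Zp p) (Zp p) (Zp p) F.B F.B F.B).toAlgHom.comp
      ((Algebra.TensorProduct.map F.comulHom (AlgHom.id (Zp p) F.B)).comp F.comulHom)
      = (Algebra.TensorProduct.map (AlgHom.id (Zp p) F.B) F.comulHom).comp F.comulHom :=
  AlgHom.ext fun a => F.comulHom_coassoc_apply a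


/-! ### Counit axioms -/

theorem coe_smul_apply (r : Zp p) (a : F.B) (y : M) :
    ((r • a : F.B) : M → Qb) y = algebraMap (Zp p) Qb r * (a : M → Qb) y := by
  show (r • (a : M → Qb)) y = _
  rw [Pi.smul_apply, Algebra.smul_def]

theorem lid_map_counit (t : F.B ⊗[Zp p] F.B) (y : M) :
    ((Algebra.TensorProduct.lid (Zp p) F.B
      (Algebra.TensorProduct.map F.counitHom (AlgHom.id (Zp p) F.B) t) : F.B) : M → Qb) y =
      F.iota2 t (0, y) := by
  induction t using TensorProduct.induction_on with
  | zero => rw [map_zero, map_zero, map_zero]; rfl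
  | tmul a a' =>
    rw [Algebra.TensorProduct.map_tmul, Algebra.TensorProduct.lid_tmul, coe_smul_apply,
      algebraMap_counitHom, iota2_tmul]
    rfl
  | add s t hs ht =>
    rw [map_add, map_add, map_add]
    show (_ + _ : M → Qb) y = (_ + _ : M × M → Qb) (0, y)
    rw [Pi.add_apply, Pi.add_apply, hs, ht]

theorem rid_map_counit (t : F.B ⊗[Zp p] F.B) (x : M) :
    ((Algebra.TensorProduct.rid (Zp p) (Zp p) F.B
      (Algebra.TensorProduct.map (AlgHom.id (Zp p) F.B) F.counitHom t) : F.B) : M → Qb) x =
      F.iota2 t (x, 0) := by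
  induction t using TensorProduct.induction_on with
  | zero => rw [map_zero, map_zero, map_zero]; rfl
  | tmul a a' =>
    rw [Algebra.TensorProduct.map_tmul, Algebra.TensorProduct.rid_tmul, coe_smul_apply,
      algebraMap_counitHom, iota2_tmul, mul_comm]
    rfl
  | add s t hs ht =>
    rw [map_add, map_add, map_add]
    show (_ + _ : M → Qb) x = (_ + _ : M × M → Qb) (x, 0)
    rw [Pi.add_apply, Pi.add_apply, hs, ht]

theorem comulHom_rTensor :
    (Algebra.TensorProduct.map F.counitHom (AlgHom.id (Zp p) F.B)).comp F.comulHom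
      = (Algebra.TensorProduct.lid (Zp p) F.B).symm := by
  refine AlgHom.ext fun a => ?_
  apply (Algebra.TensorProduct.lid (Zp p) F.B).injective
  show Algebra.TensorProduct.lid (Zp p) F.B
    (Algebra.TensorProduct.map F.counitHom (AlgHom.id (Zp p) F.B) (F.comulHom a)) =
    Algebra.TensorProduct.lid (Zp p) F.B ((Algebra.TensorProduct.lid (Zp p) F.B).symm a)
  rw [AlgEquiv.apply_symm_apply]
  apply Subtype.ext
  funext y
  rw [lid_map_counit, iota2_comulHom_apply]
  show (a : M → Qb) (0 + y) = _
  rw [zero_add]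

theorem comulHom_lTensor :
    (Algebra.TensorProduct.map (AlgHom.id (Zp p) F.B) F.counitHom).comp F.comulHom
      = (Algebra.TensorProduct.rid (Zp p) (Zp p) F.B).symm := by
  refine AlgHom.ext fun a => ?_
  apply (Algebra.TensorProduct.rid (Zp p) (Zp p) F.B).injective
  show Algebra.TensorProduct.rid (Zp p) (Zp p) F.B
    (Algebra.TensorProduct.map (AlgHom.id (Zp p) F.B) F.counitHom (F.comulHom a)) =
    Algebra.TensorProduct.rid (Zp p) (Zp p) F.B
      ((Algebra.TensorProduct.rid (Zp p) (Zp p) F.B).symm a)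
  rw [AlgEquiv.apply_symm_apply]
  apply Subtype.ext
  funext x
  rw [rid_map_counit, iota2_comulHom_apply]
  show (a : M → Qb) (x + 0) = _
  rw [add_zero]

/-- The bialgebra structure on a function order. -/
@[reducible] def bialgebra : Bialgebra (Zp p) F.B :=
  Bialgebra.ofAlgHom F.comulHom F.counitHom F.comulHom_coassoc F.comulHom_rTensor
    F.comulHom_lTensor

/-! ### Antipode, Hopf algebra, cocommutativity -/

/-- The antipode `b ↦ b ∘ neg`. -/
def negPull : F.B →ₐ[Zp p] F.B :=
  ((pullAlg (Zp p) (fun x : M => -x)).comp F.B.val).codRestrict F.B (fun a => F.neg_mem a a.2)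

theorem negPull_apply (a : F.B) (x : M) :
    ((F.negPull a : F.B) : M → Qb) x = (a : M → Qb) (-x) := rfl

theorem coe_algebraMap_apply (r : Zp p) (x : M) :
    ((algebraMap (Zp p) F.B r : F.B) : M → Qb) x = algebraMap (Zp p) Qb r := rfl

theorem lift_negPull_id (t : F.B ⊗[Zp p] F.B) (x : M) :
    ((Algebra.TensorProduct.lift F.negPull (AlgHom.id (Zp p) F.B) (fun _ _ => Commute.all _ _) t :
      F.B) : M → Qb) x = F.iota2 t (-x, x) := by
  induction t using TensorProduct.induction_on with
  | zero => rw [map_zero, map_zero]; rfl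
  | tmul a a' =>
    rw [Algebra.TensorProduct.lift_tmul, iota2_tmul]
    rfl
  | add s t hs ht =>
    rw [map_add, map_add]
    show (_ + _ : M → Qb) x = (_ + _ : M × M → Qb) (-x, x)
    rw [Pi.add_apply, Pi.add_apply, hs, ht]

theorem lift_id_negPull (t : F.B ⊗[Zp p] F.B) (x : M) :
    ((Algebra.TensorProduct.lift (AlgHom.id (Zp p) F.B) F.negPull (fun _ _ => Commute.all _ _) t :
      F.B) : M → Qb) x = F.iota2 t (x, -x) := by
  induction t using TensorProduct.induction_on with
  | zero => rw [map_zero, map_zero]; rfl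
  | tmul a a' =>
    rw [Algebra.TensorProduct.lift_tmul, iota2_tmul]
    rfl
  | add s t hs ht =>
    rw [map_add, map_add]
    show (_ + _ : M → Qb) x = (_ + _ : M × M → Qb) (x, -x)
    rw [Pi.add_apply, Pi.add_apply, hs, ht]

/-- The Hopf algebra structure on a function order. -/
@[reducible] def hopfAlgebra : HopfAlgebra (Zp p) F.B :=
  letI := F.bialgebra
  HopfAlgebra.ofAlgHom F.negPull
    (by
      refine AlgHom.ext fun a => ?_
      apply Subtype.ext
      funext x
      show ((Algebra.TensorProduct.lift F.negPull (AlgHom.id (Zp p) F.B)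
        (fun _ _ => Commute.all _ _) (F.comulHom a) : F.B) : M → Qb) x =
        ((algebraMap (Zp p) F.B (F.counitHom a) : F.B) : M → Qb) x
      rw [lift_negPull_id, iota2_comulHom_apply, coe_algebraMap_apply, algebraMap_counitHom]
      show (a : M → Qb) (-x + x) = _
      rw [neg_add_cancel])
    (by
      refine AlgHom.ext fun a => ?_
      apply Subtype.ext
      funext x
      show ((Algebra.TensorProduct.lift (AlgHom.id (Zp p) F.B) F.negPull
        (fun _ _ => Commute.all _ _) (F.comulHom a) : F.B) : M → Qb) x =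
        ((algebraMap (Zp p) F.B (F.counitHom a) : F.B) : M → Qb) x
      rw [lift_id_negPull, iota2_comulHom_apply, coe_algebraMap_apply, algebraMap_counitHom]
      show (a : M → Qb) (x + -x) = _
      rw [add_neg_cancel])

theorem comul_eq (a : F.B) :
    letI := F.hopfAlgebra
    Coalgebra.comul (R := Zp p) a = F.comulHom a := rfl

theorem iota2_comm (t : F.B ⊗[Zp p] F.B) (xy : M × M) :
    F.iota2 (TensorProduct.comm (Zp p) F.B F.B t) xy = F.iota2 t (xy.2, xy.1) := by
  induction t using TensorProduct.induction_on with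
  | zero => rw [map_zero, map_zero]; rfl
  | tmul a a' =>
    rw [TensorProduct.comm_tmul, iota2_tmul, iota2_tmul, mul_comm]
  | add s t hs ht =>
    rw [map_add, map_add, map_add, Pi.add_apply, Pi.add_apply, hs, ht]

theorem isCocomm :
    letI := F.hopfAlgebra
    Coalgebra.IsCocomm (Zp p) F.B := by
  let _ := F.hopfAlgebra
  refine ⟨LinearMap.ext fun a => ?_⟩
  apply F.iota2_injective
  funext xy
  show F.iota2 (TensorProduct.comm (Zp p) F.B F.B (F.comulHom a)) xy = F.iota2 (F.comulHom a) xy
  rw [iota2_comm, iota2_comulHom_apply, iota2_comulHom_apply, add_comm]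

/-! ### Points -/

/-- evaluation at a point, as an algebra hom -/
def evalHom (x : M) : F.B →ₐ[Zp p] Qb := (Pi.evalAlgHom (Zp p) (fun _ : M => Qb) x).comp F.B.val

@[simp] theorem evalHom_apply (x : M) (a : F.B) : F.evalHom x a = (a : M → Qb) x := rfl

theorem evalHom_injective : Function.Injective F.evalHom := fun x y h =>
  F.separates x y fun b hb => congrArg (fun f : F.B →ₐ[Zp p] Qb => f ⟨b, hb⟩) h

/-- the space of linear forms has dimension the rank of `B` -/
theorem finrank_linearMap : Module.finrank Qb (F.B →ₗ[Zp p] Qb) = Fintype.card F.I := by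
  rw [← (F.basis.constr Qb (M' := Qb)).finrank_eq, Module.finrank_fintype_fun_eq_card]

instance : Module.Finite Qb (F.B →ₗ[Zp p] Qb) :=
  Module.Finite.equiv (F.basis.constr Qb (M' := Qb))

instance finite_algHom : Finite (F.B →ₐ[Zp p] Qb) :=
  (linearIndependent_toLinearMap (Zp p) F.B Qb).finite

theorem card_algHom_le : Nat.card (F.B →ₐ[Zp p] Qb) ≤ Fintype.card F.I := by
  classical
  have := Fintype.ofFinite (F.B →ₐ[Zp p] Qb)
  rw [Nat.card_eq_fintype_card, ← F.finrank_linearMap]
  exact (linearIndependent_toLinearMap (Zp p) F.B Qb).fintype_card_le_finrank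

include F in
theorem finite_M : Finite M := Finite.of_injective _ F.evalHom_injective

theorem card_I_le : Fintype.card F.I ≤ Nat.card M := by
  classical
  have := F.finite_M
  have := Fintype.ofFinite M
  have h := F.basis_linearIndependent_Qb.fintype_card_le_finrank
  rw [Module.finrank_fintype_fun_eq_card] at h
  rwa [Nat.card_eq_fintype_card]

theorem evalHom_bijective : Function.Bijective F.evalHom :=
  F.evalHom_injective.bijective_of_nat_card_le (F.card_algHom_le.trans F.card_I_le)

/-! ### The main theorem -/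

theorem lift_evalHom (x y : M) (t : F.B ⊗[Zp p] F.B) :
    Algebra.TensorProduct.lift (F.evalHom x) (F.evalHom y) (fun _ _ => Commute.all _ _) t =
      F.iota2 t (x, y) := by
  induction t using TensorProduct.induction_on with
  | zero => rw [map_zero, map_zero]; rfl
  | tmul a a' => rw [Algebra.TensorProduct.lift_tmul, iota2_tmul]; rfl
  | add s t hs ht => rw [map_add, map_add, hs, ht, Pi.add_apply]

/-- the equivalence between points of the Hopf algebra and `M` -/
def pointEquiv : WithConv (F.B →ₐ[Zp p] Qb) ≃ M :=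
  (WithConv.equiv _).trans (Equiv.ofBijective F.evalHom F.evalHom_bijective).symm

theorem ofConv_eq_evalHom (f : WithConv (F.B →ₐ[Zp p] Qb)) :
    f.ofConv = F.evalHom (F.pointEquiv f) := by
  have := (Equiv.ofBijective F.evalHom F.evalHom_bijective).apply_symm_apply f.ofConv
  exact this.symm

theorem pointEquiv_eq_iff (f : WithConv (F.B →ₐ[Zp p] Qb)) (x : M) :
    F.pointEquiv f = x ↔ f.ofConv = F.evalHom x := by
  constructor
  · rintro rfl; exact F.ofConv_eq_evalHom f
  · intro h
    apply F.evalHom_injective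
    rw [← F.ofConv_eq_evalHom, h]

include F in
theorem hasFlatModel : HasFlatModel p M act := by
  let _ := F.hopfAlgebra
  refine ⟨F.B, inferInstance, F.hopfAlgebra, F.fg, inferInstance, F.isCocomm, F.pointEquiv, ?_, ?_⟩
  · intro f g
    rw [pointEquiv_eq_iff]
    refine AlgHom.ext fun a => ?_
    have h1 : (f * g).ofConv a = (f * g) a := rfl
    rw [h1, AlgHom.convMul_apply, F.ofConv_eq_evalHom f, F.ofConv_eq_evalHom g]
    show Algebra.TensorProduct.lift _ _ _ (F.comulHom a) = _
    rw [lift_evalHom, iota2_comulHom_apply]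
    rfl
  · intro σ f g hfg
    rw [pointEquiv_eq_iff]
    refine AlgHom.ext fun a => ?_
    have h1 : g.ofConv a = g a := rfl
    have h2 : f a = f.ofConv a := rfl
    rw [h1, hfg a, h2, F.ofConv_eq_evalHom f, evalHom_apply, evalHom_apply,
      F.equivariant _ a.2]

end FunOrder
end Fermat.Agent.Flat44
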