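/-
Flat44 (helper44): products of function orders, the trivial function order, finite powers.
-/
import Mathlib
import Fermat.Agent.Flat44.ToHopf
import Fermat.Agent.Flat44.OfHopf
import Fermat.Agent.Flat44.Sub

set_option autoImplicit false
set_option synthInstance.maxHeartbeats 200000

noncomputable section

namespace Fermat.Agent.Flat44

open scoped TensorProduct

namespace FunOrder

variable {p : ℕ} {M M' : Type} [AddCommGroup M] [AddCommGroup M']
  {act : GQ → M → M} {act' : GQ → M' → M'}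

/-- `B ⊗ B' → (M × M' → ℚ̄)`. -/
def kappa (F : FunOrder p M act) (F' : FunOrder p M' act') :
    F.B ⊗[Zp p] F'.B →ₐ[Zp p] (M × M' → Qb) :=
  Algebra.TensorProduct.lift ((pullAlg (Zp p) Prod.fst).comp F.B.val)
    ((pullAlg (Zp p) Prod.snd).comp F'.B.val) (fun _ _ => Commute.all _ _)

@[simp] theorem kappa_tmul (F : FunOrder p M act) (F' : FunOrder p M' act') (a : F.B) (a' : F'.B)
    (xy : M × M') :
    kappa F F' (a ⊗ₜ a') xy = (a : M → Qb) xy.1 * (a' : M' → Qb) xy.2 := by
  simp [kappa, Algebra.TensorProduct.lift_tmul]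

/-- The product of two function orders. -/
def prod (F : FunOrder p M act) (F' : FunOrder p M' act') (actp : GQ → M × M' → M × M')
    (hp : ∀ σ x, actp σ x = (act σ x.1, act' σ x.2)) : FunOrder p (M × M') actp where
  B := (kappa F F').range
  fg := Module.Finite.of_surjective (kappa F F').rangeRestrict.toLinearMap
    (kappa F F').rangeRestrict_surjective
  equivariant := by
    rintro _ ⟨t, rfl⟩ σ x
    show kappa F F' t (actp σ x) = σ (kappa F F' t x)
    induction t using TensorProduct.induction_on with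
    | zero => rw [map_zero]; simp
    | tmul a a' =>
      rw [kappa_tmul, kappa_tmul, hp, map_mul, F.equivariant _ a.2, F'.equivariant _ a'.2]
    | add s t hs ht => rw [map_add, Pi.add_apply, Pi.add_apply, hs, ht, map_add]
  separates := by
    rintro ⟨x, x'⟩ ⟨y, y'⟩ h
    have h1 : x = y := F.separates _ _ fun b hb => by
      have := h _ ⟨(⟨b, hb⟩ : F.B) ⊗ₜ (1 : F'.B), rfl⟩
      have e : ∀ z : M × M', kappa F F' ((⟨b, hb⟩ : F.B) ⊗ₜ (1 : F'.B)) z = b z.1 := by
        intro z
        rw [kappa_tmul]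
        show b z.1 * (1 : M' → Qb) z.2 = _
        rw [Pi.one_apply, mul_one]
      have h2 : kappa F F' ((⟨b, hb⟩ : F.B) ⊗ₜ (1 : F'.B)) (x, x') =
          kappa F F' ((⟨b, hb⟩ : F.B) ⊗ₜ (1 : F'.B)) (y, y') := this
      rwa [e, e] at h2
    have h2 : x' = y' := F'.separates _ _ fun b hb => by
      have := h _ ⟨(1 : F.B) ⊗ₜ (⟨b, hb⟩ : F'.B), rfl⟩
      have e : ∀ z : M × M', kappa F F' ((1 : F.B) ⊗ₜ (⟨b, hb⟩ : F'.B)) z = b z.2 := by
        intro z
        rw [kappa_tmul]
        show (1 : M → Qb) z.1 * b z.2 = _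
        rw [Pi.one_apply, one_mul]
      have h2 : kappa F F' ((1 : F.B) ⊗ₜ (⟨b, hb⟩ : F'.B)) (x, x') =
          kappa F F' ((1 : F.B) ⊗ₜ (⟨b, hb⟩ : F'.B)) (y, y') := this
      rwa [e, e] at h2
    rw [h1, h2]
  comul_mem := by
    rintro _ ⟨t, rfl⟩
    show ∃ (ι : Type) (_ : Fintype ι) (u v : ι → M × M' → Qb),
      (∀ i, u i ∈ (kappa F F').range) ∧ (∀ i, v i ∈ (kappa F F').range) ∧
        ∀ x y, kappa F F' t (x + y) = ∑ i, u i x * v i y
    induction t using TensorProduct.induction_on with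
    | zero =>
      refine ⟨Empty, inferInstance, fun i => i.elim, fun i => i.elim, fun i => i.elim,
        fun i => i.elim, fun x y => ?_⟩
      rw [map_zero]
      simp
    | tmul a a' =>
      obtain ⟨ι, _, u, v, hu, hv, huv⟩ := F.comul_mem a a.2
      obtain ⟨ι', _, u', v', hu', hv', huv'⟩ := F'.comul_mem a' a'.2
      refine ⟨ι × ι', inferInstance,
        fun i => kappa F F' ((⟨u i.1, hu i.1⟩ : F.B) ⊗ₜ (⟨u' i.2, hu' i.2⟩ : F'.B)),
        fun i => kappa F F' ((⟨v i.1, hv i.1⟩ : F.B) ⊗ₜ (⟨v' i.2, hv' i.2⟩ : F'.B)),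
        fun i => ⟨_, rfl⟩, fun i => ⟨_, rfl⟩, fun x y => ?_⟩
      rw [kappa_tmul]
      show (a : M → Qb) (x.1 + y.1) * (a' : M' → Qb) (x.2 + y.2) = _
      rw [huv, huv', Finset.sum_mul_sum, Fintype.sum_prod_type]
      refine Finset.sum_congr rfl fun i _ => Finset.sum_congr rfl fun i' _ => ?_
      show _ = kappa F F' ((⟨u i, hu i⟩ : F.B) ⊗ₜ (⟨u' i', hu' i'⟩ : F'.B)) x *
        kappa F F' ((⟨v i, hv i⟩ : F.B) ⊗ₜ (⟨v' i', hv' i'⟩ : F'.B)) y
      rw [kappa_tmul, kappa_tmul]
      show u i x.1 * v i y.1 * (u' i' x.2 * v' i' y.2) =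
        u i x.1 * u' i' x.2 * (v i y.1 * v' i' y.2)
      ring
    | add s t hs ht =>
      obtain ⟨ι₁, _, u₁, v₁, hu₁, hv₁, huv₁⟩ := hs
      obtain ⟨ι₂, _, u₂, v₂, hu₂, hv₂, huv₂⟩ := ht
      refine ⟨ι₁ ⊕ ι₂, inferInstance, Sum.elim u₁ u₂, Sum.elim v₁ v₂, ?_, ?_, fun x y => ?_⟩
      · rintro (i | i)
        · exact hu₁ i
        · exact hu₂ i
      · rintro (i | i)
        · exact hv₁ i
        · exact hv₂ i
      · rw [map_add, Pi.add_apply, huv₁, huv₂, Fintype.sum_sum_type]
        rfl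
  neg_mem := by
    rintro _ ⟨t, rfl⟩
    show (fun x => kappa F F' t (-x)) ∈ (kappa F F').range
    induction t using TensorProduct.induction_on with
    | zero =>
      refine ⟨0, ?_⟩
      funext x
      show (kappa F F') 0 x = (kappa F F') 0 (-x)
      rw [map_zero]
      rfl
    | tmul a a' =>
      refine ⟨(⟨_, F.neg_mem a a.2⟩ : F.B) ⊗ₜ (⟨_, F'.neg_mem a' a'.2⟩ : F'.B), ?_⟩
      funext x
      show kappa F F' _ x = kappa F F' (a ⊗ₜ a') (-x)
      rw [kappa_tmul, kappa_tmul]
      rfl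
    | add s t hs ht =>
      have : (fun x => kappa F F' (s + t) (-x)) =
          (fun x => kappa F F' s (-x)) + (fun x => kappa F F' t (-x)) := by
        funext x
        rw [map_add]
        rfl
      rw [this]
      exact Subalgebra.add_mem _ hs ht
  zero_mem := by
    rintro _ ⟨t, rfl⟩
    show ∃ r : Zp p, algebraMap (Zp p) Qb r = kappa F F' t 0
    induction t using TensorProduct.induction_on with
    | zero => exact ⟨0, by rw [map_zero, map_zero]; rfl⟩
    | tmul a a' =>
      obtain ⟨r, hr⟩ := F.zero_mem a a.2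
      obtain ⟨r', hr'⟩ := F'.zero_mem a' a'.2
      refine ⟨r * r', ?_⟩
      rw [kappa_tmul, map_mul, hr, hr']
      rfl
    | add s t hs ht =>
      obtain ⟨r, hr⟩ := hs
      obtain ⟨r', hr'⟩ := ht
      exact ⟨r + r', by rw [map_add, map_add, Pi.add_apply, hr, hr']⟩

/-- The function order on a trivial group: constants. -/
def ofSubsingleton [Subsingleton M] (act : GQ → M → M) : FunOrder p M act where
  B := ⊥
  fg := inferInstance
  equivariant := by
    intro b hb σ x
    obtain ⟨r, rfl⟩ := Algebra.mem_bot.mp hb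
    show algebraMap (Zp p) Qb r = σ (algebraMap (Zp p) Qb r)
    rw [IsScalarTower.algebraMap_apply (Zp p) ℚ Qb, AlgEquiv.commutes]
  separates := fun x y _ => Subsingleton.elim x y
  comul_mem := by
    intro b hb
    obtain ⟨r, rfl⟩ := Algebra.mem_bot.mp hb
    refine ⟨Unit, inferInstance, fun _ => algebraMap (Zp p) (M → Qb) r, fun _ => 1,
      fun _ => Subalgebra.algebraMap_mem _ _, fun _ => Subalgebra.one_mem _, fun x y => ?_⟩
    simp
  neg_mem := by
    intro b hb
    obtain ⟨r, rfl⟩ := Algebra.mem_bot.mp hb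
    exact Subalgebra.algebraMap_mem _ r
  zero_mem := by
    intro b hb
    obtain ⟨r, rfl⟩ := Algebra.mem_bot.mp hb
    exact ⟨r, rfl⟩

end FunOrder

end Fermat.Agent.Flat44
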