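/-
Flat44 (helper44): the quotient of a function order by a Galois-stable subgroup.

For a function order `B` on `M` and a stable subgroup `S`, the functions on `M ⧸ S` whose pull-back
to `M` lies in `B` form a function order on `M ⧸ S`.  The two non-formal points:

* separation of the points of `M ⧸ S`: norms `z ↦ ∏ s ∈ S, a (z + s)` of elements of `B` are again in
  `B` (Galois descent of the coefficients, which are integral over `ℤ_(p)`), and a covering argument
  (B. H. Neumann) shows that they separate the cosets;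
* stability under comultiplication: re-expansion in bases of `B` and of the invariants `B^S`,
  using `ℚ̄`-linear independence of these bases (`expand_basis`).
-/
import Mathlib
import Fermat.Agent.Flat44.ToHopf

set_option autoImplicit false
set_option synthInstance.maxHeartbeats 200000

noncomputable section

namespace Fermat.Agent.Flat44

open Polynomial
open scoped Pointwise

theorem zp_smul_apply {p : ℕ} {Y : Type} (r : Zp p) (w : Y → Qb) (y : Y) :
    (r • w) y = algebraMap (Zp p) Qb r * w y := by
  rw [Pi.smul_apply, Algebra.smul_def]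

/-- **Re-expansion in a basis.** If `Φ (x, y) = ∑ i, n i x * w i y` with the `n i` in a free
`ℤ_(p)`-module `N` of functions (through `j`) whose basis `ν` is `ℚ̄`-linearly independent, then
`Φ (x, y) = ∑ k, ν k x * c k y` where `c k = ∑ i, repr (n i) k • w i`, and the `c k` inherit every
"constancy" of `Φ` in the variable `y`. -/
theorem expand_basis {p : ℕ} {X Y K ι N : Type} [Fintype K] [Fintype ι]
    [AddCommGroup N] [Module (Zp p) N] (j : N →ₗ[Zp p] (X → Qb)) (ν : Module.Basis K (Zp p) N)
    (hν : LinearIndependent Qb (fun k => j (ν k)))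
    (n : ι → N) (w : ι → Y → Qb) :
    (∀ x y, ∑ i, j (n i) x * w i y =
      ∑ k, j (ν k) x * (∑ i, (ν.repr (n i) k) • w i) y) ∧
    (∀ y y', (∀ x, ∑ i, j (n i) x * w i y = ∑ i, j (n i) x * w i y') →
      ∀ k, (∑ i, (ν.repr (n i) k) • w i) y = (∑ i, (ν.repr (n i) k) • w i) y') := by
  classical
  have hexp : ∀ x y, ∑ i, j (n i) x * w i y =
      ∑ k, j (ν k) x * (∑ i, (ν.repr (n i) k) • w i) y := by
    intro x y
    have h1 : ∀ i, j (n i) x =
        ∑ k, algebraMap (Zp p) Qb (ν.repr (n i) k) * j (ν k) x := by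
      intro i
      have h2 := ν.sum_repr (n i)
      have h3 : j (n i) = ∑ k, (ν.repr (n i) k) • j (ν k) := by
        conv_lhs => rw [← h2]
        rw [map_sum]
        refine Finset.sum_congr rfl fun k _ => ?_
        rw [map_smul]
      rw [h3, Finset.sum_apply]
      refine Finset.sum_congr rfl fun k _ => ?_
      rw [zp_smul_apply]
    simp only [h1, Finset.sum_mul, Finset.sum_apply, zp_smul_apply, Finset.mul_sum]
    rw [Finset.sum_comm]
    refine Finset.sum_congr rfl fun k _ => Finset.sum_congr rfl fun i _ => ?_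
    ring
  refine ⟨hexp, fun y y' hyy' k => ?_⟩
  have hli := Fintype.linearIndependent_iff.mp hν
  refine sub_eq_zero.mp (hli (fun k => (∑ i, (ν.repr (n i) k) • w i) y -
    (∑ i, (ν.repr (n i) k) • w i) y') ?_ k)
  funext x
  have h1 := hyy' x
  rw [hexp, hexp] at h1
  rw [← sub_eq_zero, ← Finset.sum_sub_distrib] at h1
  simp only [Finset.sum_apply, Pi.smul_apply, smul_eq_mul, Pi.zero_apply] at h1 ⊢
  rw [← h1]
  refine Finset.sum_congr rfl fun k _ => ?_
  ring

/-- the integral closure of `ℤ_(p)` in `ℚ̄` -/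
abbrev Rbar (p : ℕ) : Subalgebra (Zp p) Qb := integralClosure (Zp p) Qb

namespace FunOrder

variable {p : ℕ} {M : Type} [AddCommGroup M] {act : GQ → M → M} (F : FunOrder p M act)

/-- values of elements of a function order are integral over `ℤ_(p)` -/
theorem isIntegral_apply {a : M → Qb} (ha : a ∈ F.B) (x : M) : IsIntegral (Zp p) (a x) := by
  have h1 : IsIntegral (Zp p) (⟨a, ha⟩ : F.B) := IsIntegral.of_finite (Zp p) _
  exact h1.map (F.evalHom x)

/-- **Descent.** An equivariant function which is a combination of the basis of `B` with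
coefficients integral over `ℤ_(p)` lies in `B`. -/
theorem mem_of_equivariant_of_sum (f : M → Qb) (hf : ∀ (σ : GQ) (x : M), f (act σ x) = σ (f x))
    (c : F.I → Qb) (hc : ∀ l, IsIntegral (Zp p) (c l))
    (hsum : f = ∑ l, c l • ((F.basis l : F.B) : M → Qb)) : f ∈ F.B := by
  classical
  have hli := Fintype.linearIndependent_iff.mp F.basis_linearIndependent_Qb
  -- the coefficients are Galois-fixed
  have hfix : ∀ (σ : GQ) (l : F.I), σ (c l) = c l := by
    intro σ l
    refine sub_eq_zero.mp (hli (fun l => σ (c l) - c l) ?_ l)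
    funext y
    obtain ⟨x, rfl⟩ := F.act_surjective σ y
    have h1 : f (act σ x) = σ (f x) := hf σ x
    rw [hsum] at h1
    simp only [Finset.sum_apply, Pi.smul_apply, smul_eq_mul, map_sum, map_mul] at h1
    simp only [Finset.sum_apply, Pi.smul_apply, smul_eq_mul, Pi.zero_apply, sub_mul,
      Finset.sum_sub_distrib]
    rw [sub_eq_zero, h1]
    refine Finset.sum_congr rfl fun l _ => ?_
    rw [F.equivariant _ (F.basis l).2]
  -- hence in `ℤ_(p)`
  choose r hr using fun l => mem_range_of_fixed_of_isIntegral p (c l) (fun σ => hfix σ l) (hc l)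
  rw [hsum]
  refine Subalgebra.sum_mem _ fun l _ => ?_
  rw [← hr l, algebraMap_smul]
  exact Subalgebra.smul_mem _ (F.basis l).2 _

/-- the `R̄`-subalgebra of functions generated by `B` -/
def intAdjoin : Subalgebra (Rbar p) (M → Qb) := Algebra.adjoin (Rbar p) (F.B : Set (M → Qb))

theorem mem_intAdjoin_of_mem {a : M → Qb} (ha : a ∈ F.B) : a ∈ F.intAdjoin :=
  Algebra.subset_adjoin ha

theorem exists_sum_of_mem_intAdjoin {f : M → Qb} (hf : f ∈ F.intAdjoin) :
    ∃ c : F.I → Qb, (∀ l, IsIntegral (Zp p) (c l)) ∧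
      f = ∑ l, c l • ((F.basis l : F.B) : M → Qb) := by
  have h1 : f ∈ Submodule.span (Rbar p) (Set.range fun l => ((F.basis l : F.B) : M → Qb)) := by
    have h2 : f ∈ Subalgebra.toSubmodule F.intAdjoin := hf
    rw [intAdjoin, Algebra.adjoin_eq_span] at h2
    have h3 : Submonoid.closure (F.B : Set (M → Qb)) = F.B.toSubmonoid :=
      Submonoid.closure_eq F.B.toSubmonoid
    rw [h3] at h2
    refine Submodule.span_le.mpr ?_ h2
    intro a ha
    -- `a ∈ B` is a `ℤ_(p)`-combination of the basis
    have h4 : ∀ b : F.B, (b : M → Qb) ∈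
        Submodule.span (Rbar p) (Set.range fun l => ((F.basis l : F.B) : M → Qb)) := by
      intro b
      have h5 := F.basis.sum_repr b
      have h6 : (b : M → Qb) = ∑ l, (algebraMap (Zp p) (Rbar p) (F.basis.repr b l)) •
          ((F.basis l : F.B) : M → Qb) := by
        conv_lhs => rw [← h5]
        rw [AddSubmonoidClass.coe_finsetSum]
        refine Finset.sum_congr rfl fun l _ => ?_
        rw [algebraMap_smul]
        rfl
      rw [h6]
      exact Submodule.sum_mem _ fun l _ =>
        Submodule.smul_mem _ _ (Submodule.subset_span ⟨l, rfl⟩)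
    exact h4 ⟨a, ha⟩
  obtain ⟨c, hc⟩ := (Submodule.mem_span_range_iff_exists_fun (Rbar p)).mp h1
  refine ⟨fun l => (c l : Qb), fun l => (c l).2, ?_⟩
  rw [← hc]
  rfl

theorem translate_mem_intAdjoin {a : M → Qb} (ha : a ∈ F.B) (s : M) :
    (fun z => a (z + s)) ∈ F.intAdjoin := by
  obtain ⟨ι, _, u, v, hu, hv, huv⟩ := F.comul_mem a ha
  have h : (fun z => a (z + s)) =
      ∑ i, (⟨v i s, F.isIntegral_apply (hv i) s⟩ : Rbar p) • u i := by
    funext z
    rw [huv, Finset.sum_apply]
    refine Finset.sum_congr rfl fun i _ => ?_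
    rw [Pi.smul_apply, mul_comm]
    rfl
  rw [h]
  exact Subalgebra.sum_mem _ fun i _ => Subalgebra.smul_mem _ (F.mem_intAdjoin_of_mem (hu i)) _

/-- The norm over a stable subgroup of an element of `B` lies in `B`. -/
theorem norm_mem (S : AddSubgroup M) [Fintype S] (hS : ∀ σ, ∀ x ∈ S, act σ x ∈ S)
    {a : M → Qb} (ha : a ∈ F.B) : (fun z => ∏ s : S, a (z + (s : M))) ∈ F.B := by
  have hmem : (fun z => ∏ s : S, a (z + (s : M))) ∈ F.intAdjoin := by
    have h : (fun z => ∏ s : S, a (z + (s : M))) = ∏ s : S, (fun z => a (z + (s : M))) := by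
      funext z
      rw [Finset.prod_apply]
    rw [h]
    exact Subalgebra.prod_mem _ fun s _ => F.translate_mem_intAdjoin ha s
  obtain ⟨c, hc, hsum⟩ := F.exists_sum_of_mem_intAdjoin hmem
  refine F.mem_of_equivariant_of_sum _ ?_ c hc hsum
  intro σ z
  -- reindex by `s ↦ act σ s`
  let eσ : S → S := fun s => ⟨act σ (s : M), hS σ _ s.2⟩
  have hinj : Function.Injective eσ := fun s t h =>
    Subtype.ext (F.act_injective σ (congrArg Subtype.val h))
  have hbij : Function.Bijective eσ := Finite.injective_iff_bijective.mp hinj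
  show ∏ s : S, a (act σ z + (s : M)) = σ (∏ s : S, a (z + (s : M)))
  rw [map_prod, ← Fintype.prod_bijective eσ hbij (fun s => a (act σ z + ((eσ s : S) : M)))
    (fun s => a (act σ z + (s : M))) (fun s => rfl)]
  refine Finset.prod_congr rfl fun s _ => ?_
  show a (act σ z + act σ (s : M)) = σ (a (z + (s : M)))
  rw [← F.act_add, F.equivariant a ha]

/-- If all norms over `S` of elements of `B` agree at `x` and `y`, every `a ∈ B` takes at `y` one of
its values on `x + S`. -/
theorem exists_apply_eq_of_norm_eq (S : AddSubgroup M) [Fintype S] {x y : M}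
    (h : ∀ a ∈ F.B, ∏ s : S, a (x + (s : M)) = ∏ s : S, a (y + (s : M)))
    {a : M → Qb} (ha : a ∈ F.B) : ∃ s : S, a (x + (s : M)) = a y := by
  classical
  let Qx : Qb[X] := ∏ s : S, (C (a (x + (s : M))) - X)
  let Qy : Qb[X] := ∏ s : S, (C (a (y + (s : M))) - X)
  have heq : Qx = Qy := by
    refine Polynomial.eq_of_infinite_eval_eq Qx Qy ?_
    refine Set.Infinite.mono ?_ (Set.infinite_range_of_injective (Int.cast_injective (α := Qb)))
    rintro _ ⟨c, rfl⟩
    show eval (c : Qb) Qx = eval (c : Qb) Qy
    have hc : a - algebraMap (Zp p) (M → Qb) (c : Zp p) ∈ F.B :=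
      Subalgebra.sub_mem _ ha (Subalgebra.algebraMap_mem _ _)
    have h1 := h _ hc
    have hval : ∀ z : M, (a - algebraMap (Zp p) (M → Qb) (c : Zp p)) z = a z - (c : Qb) := by
      intro z
      rw [Pi.sub_apply, Pi.algebraMap_apply, map_intCast]
    simp only [hval] at h1
    simp only [Qx, Qy, eval_prod, eval_sub, eval_C, eval_X]
    exact h1
  have h0 : eval (a y) Qy = 0 := by
    simp only [Qy, eval_prod, eval_sub, eval_C, eval_X]
    refine Finset.prod_eq_zero (Finset.mem_univ (0 : S)) ?_
    rw [ZeroMemClass.coe_zero, add_zero, sub_self]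
  rw [← heq] at h0
  simp only [Qx, eval_prod, eval_sub, eval_C, eval_X, Finset.prod_eq_zero_iff] at h0
  obtain ⟨s, -, hs⟩ := h0
  exact ⟨s, sub_eq_zero.mp hs⟩

/-- If every `a ∈ B` takes at `y` one of its values on `x + S`, then `y ∈ x + S`. -/
theorem exists_add_eq_of_forall_exists (S : AddSubgroup M) [Fintype S] {x y : M}
    (h : ∀ a ∈ F.B, ∃ s : S, a (x + (s : M)) = a y) : ∃ s : S, x + (s : M) = y := by
  classical
  -- the additive maps `b ↦ b (x + s) - b y`
  let φ : S → (F.B →+ Qb) := fun s =>
    { toFun := fun b => (b : M → Qb) (x + (s : M)) - (b : M → Qb) y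
      map_zero' := by simp
      map_add' := fun b c => by
        show (b + c : M → Qb) _ - (b + c : M → Qb) _ = _
        rw [Pi.add_apply, Pi.add_apply]; ring }
  have hcover : ⋃ s ∈ (Finset.univ : Finset S), ((0 : F.B) +ᵥ ((φ s).ker : Set F.B)) = Set.univ := by
    rw [Set.eq_univ_iff_forall]
    intro b
    obtain ⟨s, hs⟩ := h b b.2
    rw [Set.mem_iUnion₂]
    refine ⟨s, Finset.mem_univ _, ?_⟩
    rw [zero_vadd]
    show φ s b = 0
    exact sub_eq_zero.mpr hs
  obtain ⟨s, -, hfin⟩ := AddSubgroup.exists_finiteIndex_of_leftCoset_cover hcover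
  refine ⟨s, F.separates _ _ fun b hb => ?_⟩
  -- `n • b ∈ ker`, so `φ s b = 0`
  have h1 : (φ s).ker.index • (⟨b, hb⟩ : F.B) ∈ (φ s).ker := AddSubgroup.nsmul_index_mem _ _
  have h2 : φ s ((φ s).ker.index • (⟨b, hb⟩ : F.B)) = 0 := h1
  rw [map_nsmul, smul_eq_zero] at h2
  rcases h2 with h2 | h2
  · exact absurd h2 hfin.index_ne_zero
  · exact sub_eq_zero.mp h2

/-! ### Invariants -/

/-- the `S`-invariant elements of `B` -/
def invSub (S : AddSubgroup M) : Submodule (Zp p) (M → Qb) where
  carrier := {a | a ∈ F.B ∧ ∀ s ∈ S, ∀ z, a (z + s) = a z}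
  zero_mem' := ⟨Subalgebra.zero_mem _, fun _ _ _ => rfl⟩
  add_mem' := fun {a b} ha hb => ⟨Subalgebra.add_mem _ ha.1 hb.1, fun s hs z => by
    rw [Pi.add_apply, Pi.add_apply, ha.2 s hs, hb.2 s hs]⟩
  smul_mem' := fun r {a} ha => ⟨Subalgebra.smul_mem _ ha.1 r, fun s hs z => by
    rw [Pi.smul_apply, Pi.smul_apply, ha.2 s hs]⟩

theorem mem_invSub {S : AddSubgroup M} {a : M → Qb} :
    a ∈ F.invSub S ↔ a ∈ F.B ∧ ∀ s ∈ S, ∀ z, a (z + s) = a z := Iff.rfl

instance instFiniteInvSub (S : AddSubgroup M) : Module.Finite (Zp p) (F.invSub S) := by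
  have hle : F.invSub S ≤ Subalgebra.toSubmodule F.B := fun a ha => ha.1
  have : Module.Finite (Zp p) (Subalgebra.toSubmodule F.B) := F.fg
  exact Module.Finite.of_injective (Submodule.inclusion hle) (Submodule.inclusion_injective hle)

instance instFreeInvSub (S : AddSubgroup M) : Module.Free (Zp p) (F.invSub S) :=
  Module.free_of_finite_type_torsion_free'

/-- index type of the chosen basis of the invariants -/
abbrev I' (S : AddSubgroup M) : Type := Module.Free.ChooseBasisIndex (Zp p) (F.invSub S)

/-- the chosen basis of the invariants -/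
def basis' (S : AddSubgroup M) : Module.Basis (F.I' S) (Zp p) (F.invSub S) :=
  Module.Free.chooseBasis (Zp p) (F.invSub S)

theorem basis'_linearIndependent_Qb (S : AddSubgroup M) :
    LinearIndependent Qb (fun k => (F.invSub S).subtype (F.basis' S k)) := by
  refine linearIndependent_Qb_of_Zp act p _
    (fun k σ x => F.equivariant _ (F.basis' S k).2.1 σ x) F.act_surjective ?_
  exact (F.basis' S).linearIndependent.map' (F.invSub S).subtype (Submodule.ker_subtype _)

/-- Descend an `S`-invariant function to the quotient. -/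
def descend (S : AddSubgroup M) (a : M → Qb) (ha : ∀ s ∈ S, ∀ z, a (z + s) = a z) :
    M ⧸ S → Qb :=
  Quotient.lift a (fun x y hxy => by
    have h : -x + y ∈ S := QuotientAddGroup.leftRel_apply.mp hxy
    have := ha _ h x
    rw [add_neg_cancel_left] at this
    exact this.symm)

@[simp] theorem descend_mk (S : AddSubgroup M) (a : M → Qb)
    (ha : ∀ s ∈ S, ∀ z, a (z + s) = a z) (x : M) :
    descend S a ha (QuotientAddGroup.mk x) = a x := rfl

/-- Comultiplication of an invariant element, with invariant factors. -/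
theorem comul_mem_invSub (S : AddSubgroup M) {b : M → Qb} (hb : b ∈ F.invSub S) :
    ∃ (κ : Type) (_ : Fintype κ) (u v : κ → M → Qb),
      (∀ k, u k ∈ F.invSub S) ∧ (∀ k, v k ∈ F.invSub S) ∧
        ∀ x y, b (x + y) = ∑ k, u k x * v k y := by
  classical
  obtain ⟨ι, _, u, v, hu, hv, huv⟩ := F.comul_mem b hb.1
  -- first expansion, in the basis of `B`, of the factors `v i`
  obtain ⟨h1, h2⟩ := expand_basis (p := p) (F.B.val.toLinearMap) F.basis
    F.basis_linearIndependent_Qb (fun i => (⟨v i, hv i⟩ : F.B)) u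
  set a : F.I → M → Qb := fun l => ∑ i, (F.basis.repr (⟨v i, hv i⟩ : F.B) l) • u i with ha
  have haB : ∀ l, a l ∈ F.B := fun l =>
    Subalgebra.sum_mem _ fun i _ => Subalgebra.smul_mem _ (hu i) _
  have hainv : ∀ l, a l ∈ F.invSub S := by
    intro l
    refine ⟨haB l, fun s hs x => ?_⟩
    refine h2 (x + s) x (fun y => ?_) l
    have e1 : ∀ x' : M, ∑ i, (F.B.val.toLinearMap (⟨v i, hv i⟩ : F.B)) y * u i x' = b (x' + y) := by
      intro x'
      rw [huv]
      refine Finset.sum_congr rfl fun i _ => ?_
      exact mul_comm _ _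
    rw [e1, e1, add_right_comm, hb.2 s hs]
  -- second expansion, in the basis of the invariants, of the factors `a l`
  obtain ⟨h3, h4⟩ := expand_basis (p := p) (F.invSub S).subtype (F.basis' S)
    (F.basis'_linearIndependent_Qb S) (fun l => (⟨a l, hainv l⟩ : F.invSub S))
    (fun l => ((F.basis l : F.B) : M → Qb))
  set c : F.I' S → M → Qb := fun k =>
    ∑ l, ((F.basis' S).repr (⟨a l, hainv l⟩ : F.invSub S) k) • ((F.basis l : F.B) : M → Qb)
    with hc
  have hcB : ∀ k, c k ∈ F.B := fun k =>
    Subalgebra.sum_mem _ fun l _ => Subalgebra.smul_mem _ (F.basis l).2 _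
  -- the key identity `b (x + y) = ∑ l, a l x * β l y`
  have hkey : ∀ x y, b (x + y) = ∑ l, a l x * ((F.basis l : F.B) : M → Qb) y := by
    intro x y
    have := h1 y x
    rw [huv]
    calc ∑ i, u i x * v i y = ∑ i, (F.B.val.toLinearMap (⟨v i, hv i⟩ : F.B)) y * u i x :=
          Finset.sum_congr rfl fun i _ => mul_comm _ _
      _ = ∑ l, (F.B.val.toLinearMap (F.basis l)) y * a l x := this
      _ = ∑ l, a l x * ((F.basis l : F.B) : M → Qb) y :=
          Finset.sum_congr rfl fun l _ => mul_comm _ _
  have hcinv : ∀ k, c k ∈ F.invSub S := by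
    intro k
    refine ⟨hcB k, fun s hs y => ?_⟩
    refine h4 (y + s) y (fun x => ?_) k
    have e2 : ∀ y' : M, ∑ l, ((F.invSub S).subtype (⟨a l, hainv l⟩ : F.invSub S)) x *
        ((F.basis l : F.B) : M → Qb) y' = b (x + y') := fun y' => (hkey x y').symm
    rw [e2, e2, ← add_assoc, hb.2 s hs]
  refine ⟨F.I' S, inferInstance, fun k => (F.invSub S).subtype (F.basis' S k), c,
    fun k => (F.basis' S k).2, hcinv, fun x y => ?_⟩
  rw [hkey]
  exact h3 x y

/-! ### The quotient order -/

theorem pull_mem_invSub (F : FunOrder p M act) (S : AddSubgroup M) {b' : M ⧸ S → Qb}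
    (hb' : pullAlg (Zp p) (QuotientAddGroup.mk : M → M ⧸ S) b' ∈ F.B) :
    pullAlg (Zp p) (QuotientAddGroup.mk : M → M ⧸ S) b' ∈ F.invSub S :=
  ⟨hb', fun s hs z => by
    show b' (QuotientAddGroup.mk (z + s)) = b' (QuotientAddGroup.mk z)
    rw [QuotientAddGroup.mk_add_of_mem z hs]⟩

/-- The quotient of a function order by a stable subgroup. -/
def quot (F : FunOrder p M act) (S : AddSubgroup M) (hS : ∀ σ, ∀ x ∈ S, act σ x ∈ S)
    (actq : GQ → M ⧸ S → M ⧸ S)
    (hq : ∀ σ x, actq σ (QuotientAddGroup.mk x) = QuotientAddGroup.mk (act σ x)) :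
    FunOrder p (M ⧸ S) actq where
  B := F.B.comap (pullAlg (Zp p) (QuotientAddGroup.mk : M → M ⧸ S))
  fg := by
    let ψ : ↥(F.B.comap (pullAlg (Zp p) (QuotientAddGroup.mk : M → M ⧸ S))) →ₗ[Zp p] F.B :=
      { toFun := fun b' => ⟨pullAlg (Zp p) (QuotientAddGroup.mk : M → M ⧸ S) b'.1, b'.2⟩
        map_add' := fun _ _ => rfl
        map_smul' := fun _ _ => rfl }
    refine Module.Finite.of_injective ψ ?_
    intro b₁ b₂ h
    apply Subtype.ext
    funext q
    induction q using QuotientAddGroup.induction_on with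
    | H x => exact congrFun (congrArg Subtype.val h) x
  equivariant := by
    intro b' hb' σ q
    induction q using QuotientAddGroup.induction_on with
    | H x =>
      rw [hq]
      exact F.equivariant _ hb' σ x
  separates := by
    classical
    intro q q' h
    have := F.finite_M
    have := Fintype.ofFinite S
    induction q using QuotientAddGroup.induction_on with
    | H x =>
    induction q' using QuotientAddGroup.induction_on with
    | H y =>
      -- norms are invariant elements of `B`
      have hnorm : ∀ a ∈ F.B, ∏ s : S, a (x + (s : M)) = ∏ s : S, a (y + (s : M)) := by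
        intro a ha
        have h1 := F.norm_mem S hS ha
        have hinv : ∀ t ∈ S, ∀ z, (fun z => ∏ s : S, a (z + (s : M))) (z + t) =
            (fun z => ∏ s : S, a (z + (s : M))) z := by
          intro t ht z
          show ∏ s : S, a (z + t + (s : M)) = ∏ s : S, a (z + (s : M))
          refine Fintype.prod_equiv (Equiv.addLeft (⟨t, ht⟩ : S)) _ _ fun s => ?_
          rw [Equiv.coe_addLeft, AddSubgroup.coe_add, add_assoc]
        have h2 := h (descend S (fun z => ∏ s : S, a (z + (s : M))) hinv) (by
          show pullAlg (Zp p) _ (descend S (fun z => ∏ s : S, a (z + (s : M))) hinv) ∈ F.B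
          exact h1)
        exact h2
      obtain ⟨s, hs⟩ := F.exists_add_eq_of_forall_exists S
        (fun a ha => F.exists_apply_eq_of_norm_eq S hnorm ha)
      rw [← hs]
      exact (QuotientAddGroup.mk_add_of_mem x s.2).symm
  comul_mem := by
    intro b' hb'
    obtain ⟨κ, _, u, v, hu, hv, huv⟩ := F.comul_mem_invSub S (F.pull_mem_invSub S hb')
    refine ⟨κ, inferInstance, fun k => descend S (u k) (hu k).2, fun k => descend S (v k) (hv k).2,
      fun k => (hu k).1, fun k => (hv k).1, fun q q' => ?_⟩
    induction q using QuotientAddGroup.induction_on with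
    | H x =>
    induction q' using QuotientAddGroup.induction_on with
    | H y => exact huv x y
  neg_mem := by
    intro b' hb'
    exact F.neg_mem _ hb'
  zero_mem := by
    intro b' hb'
    exact F.zero_mem _ hb'

end FunOrder

end Fermat.Agent.Flat44
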