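/-
Flat44 (helper44): closure properties of `HasFlatModel` (the existence clause of
`GaloisRep.IsFlatAt`): equivariant isomorphisms, Galois-stable subgroups, quotients by
Galois-stable subgroups, binary and finite products, and subquotients of finite powers.
-/
import Mathlib
import Fermat.Agent.Flat44.ToHopf
import Fermat.Agent.Flat44.OfHopf
import Fermat.Agent.Flat44.Sub
import Fermat.Agent.Flat44.Quot
import Fermat.Agent.Flat44.Prod

set_option autoImplicit false
set_option synthInstance.maxHeartbeats 200000

noncomputable section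

namespace Fermat.Agent.Flat44

variable {p : ℕ} {M M' : Type} [AddCommGroup M] [AddCommGroup M']
  {act : GQ → M → M} {act' : GQ → M' → M'}

/-- A Galois-stable subgroup of a module with a finite flat model has one. -/
theorem HasFlatModel.sub (h : HasFlatModel p M act) (S : AddSubgroup M) (acts : GQ → S → S)
    (hS : ∀ σ (x : S), ((acts σ x : S) : M) = act σ (x : M)) : HasFlatModel p S acts := by
  obtain ⟨F⟩ := funOrder_of_hasFlatModel h
  exact (F.sub S acts hS).hasFlatModel

/-- The quotient of a module with a finite flat model by a Galois-stable subgroup has one. -/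
theorem HasFlatModel.quot (h : HasFlatModel p M act) (S : AddSubgroup M)
    (hS : ∀ σ, ∀ x ∈ S, act σ x ∈ S) (actq : GQ → M ⧸ S → M ⧸ S)
    (hq : ∀ σ x, actq σ (QuotientAddGroup.mk x) = QuotientAddGroup.mk (act σ x)) :
    HasFlatModel p (M ⧸ S) actq := by
  obtain ⟨F⟩ := funOrder_of_hasFlatModel h
  exact (F.quot S hS actq hq).hasFlatModel

/-- Binary products. -/
theorem HasFlatModel.prod (h : HasFlatModel p M act) (h' : HasFlatModel p M' act')
    (actp : GQ → M × M' → M × M') (hp : ∀ σ x, actp σ x = (act σ x.1, act' σ x.2)) :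
    HasFlatModel p (M × M') actp := by
  obtain ⟨F⟩ := funOrder_of_hasFlatModel h
  obtain ⟨F'⟩ := funOrder_of_hasFlatModel h'
  exact (F.prod F' actp hp).hasFlatModel

/-- The trivial module. -/
theorem HasFlatModel.of_subsingleton (p : ℕ) (M : Type) [AddCommGroup M] [Subsingleton M]
    (act : GQ → M → M) : HasFlatModel p M act :=
  (FunOrder.ofSubsingleton (p := p) act).hasFlatModel

/-- Finite powers. -/
theorem HasFlatModel.pi_fin (h : HasFlatModel p M act) (r : ℕ) :
    HasFlatModel p (Fin r → M) (fun σ f i => act σ (f i)) := by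
  induction r with
  | zero => exact HasFlatModel.of_subsingleton p _ _
  | succ r ih =>
    have hprod := h.prod ih (fun σ x => (act σ x.1, fun i => act σ (x.2 i))) fun _ _ => rfl
    let φ : M × (Fin r → M) ≃+ (Fin (r + 1) → M) :=
      { toFun := fun x => Fin.cons x.1 x.2
        invFun := fun f => (f 0, Fin.tail f)
        left_inv := fun x => by simp
        right_inv := fun f => by simp
        map_add' := fun x y => by
          funext i
          refine Fin.cases ?_ (fun j => ?_) i <;> simp }
    refine hprod.of_equiv φ fun σ x => ?_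
    funext i
    refine Fin.cases ?_ (fun j => ?_) i <;> simp [φ]

/-- Subquotients of finite powers: if `X` has a finite flat model, `B ≤ A` are Galois-stable
subgroups of `X^r` and `M'` is equivariantly isomorphic to `A/B`, then `M'` has a finite flat
model. -/
theorem HasFlatModel.subquotient {X : Type} [AddCommGroup X] {actX : GQ → X → X}
    (h : HasFlatModel p X actX) (r : ℕ) (A B : AddSubgroup (Fin r → X))
    (hA : ∀ σ, ∀ f ∈ A, (fun i => actX σ (f i)) ∈ A)
    (hB : ∀ σ, ∀ f ∈ B, (fun i => actX σ (f i)) ∈ B)
    (φ : (A ⧸ B.addSubgroupOf A) ≃+ M')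
    (hφ : ∀ σ (f : A), φ (QuotientAddGroup.mk ⟨fun i => actX σ (f.1 i), hA σ f.1 f.2⟩) =
      act' σ (φ (QuotientAddGroup.mk f))) : HasFlatModel p M' act' := by
  classical
  have h1 := h.pi_fin r
  have h2 := h1.sub A (fun σ f => ⟨fun i => actX σ (f.1 i), hA σ f.1 f.2⟩) fun _ _ => rfl
  -- an action on the quotient
  let actq : GQ → A ⧸ B.addSubgroupOf A → A ⧸ B.addSubgroupOf A := fun σ q =>
    φ.symm (act' σ (φ q))
  have hq : ∀ σ (f : A), actq σ (QuotientAddGroup.mk f) =
      QuotientAddGroup.mk (⟨fun i => actX σ (f.1 i), hA σ f.1 f.2⟩ : A) := by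
    intro σ f
    show φ.symm (act' σ (φ _)) = _
    rw [← hφ, AddEquiv.symm_apply_apply]
  have h3 := h2.quot (B.addSubgroupOf A)
    (fun σ f hf => by
      rw [AddSubgroup.mem_addSubgroupOf] at hf ⊢
      exact hB σ _ hf) actq hq
  refine h3.of_equiv φ fun σ q => ?_
  show φ (φ.symm (act' σ (φ q))) = _
  rw [AddEquiv.apply_symm_apply]

end Fermat.Agent.Flat44
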