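/-
Flat44 (helper44), for cell T1a (S19 masterplan, convener helper41).

`S19Target`: the **intrinsic target of S19** and the glue to the frozen statement.

* `torsionAct N n` : the Galois action on `J₀(N)[n] = Submodule.torsionBy ℤ (JZero N) n`;
* `S19FunOrderTarget`, `S19FlatTarget` : "for all `N`, `ℓ ∤ N`, `k`, the Galois module `J₀(N)[ℓ^k]`
  has a function order / a finite flat model over `ℤ_(ℓ)`" (equivalent: `s19FlatTarget_iff`);
* `s19_of_hasFlatModel`, `s19_of_flatTarget`, `s19_of_funOrder` : the frozen S19 statement (literal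
  shape) from the intrinsic target;
* LEVEL helpers: `HasFlatModel.of_sub_surjective` (an equivariant quotient of a Galois-stable
  subgroup of a module with a finite flat model has one), `hasFlatModel_torsion_of_surjective`
  (level lowering `J₀(M)[ℓ^k'] ⇒ J₀(N)[ℓ^k]` along an equivariant additive map `g : J₀(M) → J₀(N)` which
  is surjective on the relevant torsion), `hasFlatModel_torsion_of_equiv` (iso form, for a
  subquotient of a finite power).
-/
import Mathlib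
import Fermat.Prelude.Def_ModularCurve_ArithmeticGalois
import Fermat.Prelude.Def_GaloisRep_Flat
import Fermat.Agent.Flat44.Main

set_option autoImplicit false

noncomputable section

namespace Fermat.Agent.Flat44

open ModularCurve

/-! ### The Galois module `J₀(N)[n]` -/

/-- The action of `Gal(ℚ̄/ℚ)` on the `n`-torsion of an abelian group with a distributive action. -/
def tAct (J : Type) [AddCommGroup J] [DistribMulAction GQ J] (n : ℤ) (σ : GQ)
    (x : ↥(Submodule.torsionBy ℤ J n)) : ↥(Submodule.torsionBy ℤ J n) :=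
  ⟨σ • (x : J), by
    rw [Submodule.mem_torsionBy_iff, smul_comm, (Submodule.mem_torsionBy_iff _ _).1 x.2,
      smul_zero]⟩

@[simp] theorem coe_tAct (J : Type) [AddCommGroup J] [DistribMulAction GQ J] (n : ℤ) (σ : GQ)
    (x : ↥(Submodule.torsionBy ℤ J n)) :
    ((tAct J n σ x : ↥(Submodule.torsionBy ℤ J n)) : J) = σ • (x : J) := rfl

/-- The Galois action on the `n`-torsion of `J₀(N)`. -/
abbrev torsionAct (N : ℕ) (n : ℤ) : GQ → ↥(Submodule.torsionBy ℤ (JZero N) n) →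
    ↥(Submodule.torsionBy ℤ (JZero N) n) :=
  tAct (JZero N) n

theorem coe_torsionAct (N : ℕ) (n : ℤ) (σ : GQ)
    (x : ↥(Submodule.torsionBy ℤ (JZero N) n)) :
    ((torsionAct N n σ x : ↥(Submodule.torsionBy ℤ (JZero N) n)) : JZero N) =
      σ • (x : JZero N) := rfl

/-- **The intrinsic target of S19**, function-order form. -/
def S19FunOrderTarget : Prop :=
  ∀ (N : ℕ) [NeZero N] (ℓ : ℕ) [Fact ℓ.Prime], ¬ ℓ ∣ N → ∀ k : ℕ,
    Nonempty (FunOrder ℓ ↥(Submodule.torsionBy ℤ (JZero N) ((ℓ : ℤ) ^ k))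
      (torsionAct N ((ℓ : ℤ) ^ k)))

/-- **The intrinsic target of S19**, finite-flat-model form. -/
def S19FlatTarget : Prop :=
  ∀ (N : ℕ) [NeZero N] (ℓ : ℕ) [Fact ℓ.Prime], ¬ ℓ ∣ N → ∀ k : ℕ,
    HasFlatModel ℓ ↥(Submodule.torsionBy ℤ (JZero N) ((ℓ : ℤ) ^ k)) (torsionAct N ((ℓ : ℤ) ^ k))

theorem s19FlatTarget_iff : S19FlatTarget ↔ S19FunOrderTarget :=
  ⟨fun h N _ ℓ _ hℓ k => funOrder_of_hasFlatModel (h N ℓ hℓ k),
    fun h N _ ℓ _ hℓ k => (h N ℓ hℓ k).some.hasFlatModel⟩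

/-! ### The frozen statement from the intrinsic target -/

/-- The frozen S19 conclusion for one `(N, ℓ, k)` from a finite flat model of `J₀(N)[ℓ^k]`. -/
theorem s19_of_hasFlatModel (N : ℕ) (ℓ : ℕ) (k : ℕ)
    (h : HasFlatModel ℓ ↥(Submodule.torsionBy ℤ (JZero N) ((ℓ : ℤ) ^ k))
      (torsionAct N ((ℓ : ℤ) ^ k))) :
    ∃ (H : Type) (_ : CommRing H) (_ : HopfAlgebra (GaloisRep.ratLocalizedAt ℓ) H),
      Module.Finite (GaloisRep.ratLocalizedAt ℓ) H ∧ Module.Flat (GaloisRep.ratLocalizedAt ℓ) H ∧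
      Coalgebra.IsCocomm (GaloisRep.ratLocalizedAt ℓ) H ∧
      ∃ e : WithConv (H →ₐ[GaloisRep.ratLocalizedAt ℓ] AlgebraicClosure ℚ) ≃
          ↥(Submodule.torsionBy ℤ (JZero N) ((ℓ : ℤ) ^ k)),
        (∀ f g, e (f * g) = e f + e g) ∧
        ∀ (σ : AlgebraicClosure ℚ ≃ₐ[ℚ] AlgebraicClosure ℚ)
          (f g : WithConv (H →ₐ[GaloisRep.ratLocalizedAt ℓ] AlgebraicClosure ℚ)),
          (∀ h : H, g h = σ (f h)) → ((e g : JZero N)) = σ • (e f : JZero N) := by
  obtain ⟨H, i1, i2, hfin, hflat, hcc, e, hmul, hact⟩ := h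
  exact ⟨H, i1, i2, hfin, hflat, hcc, e, hmul, fun σ f g hfg =>
    congrArg Subtype.val (hact σ f g hfg)⟩

/-- **S19 (literal frozen shape) from the finite-flat-model target.** -/
theorem s19_of_flatTarget (h : S19FlatTarget)
    (p : ℕ) [NeZero p] (ℓ : ℕ) [Fact ℓ.Prime] (hℓp : ¬ ℓ ∣ p) (k : ℕ) :
    ∃ (H : Type) (_ : CommRing H) (_ : HopfAlgebra (GaloisRep.ratLocalizedAt ℓ) H),
      Module.Finite (GaloisRep.ratLocalizedAt ℓ) H ∧ Module.Flat (GaloisRep.ratLocalizedAt ℓ) H ∧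
      Coalgebra.IsCocomm (GaloisRep.ratLocalizedAt ℓ) H ∧
      ∃ e : WithConv (H →ₐ[GaloisRep.ratLocalizedAt ℓ] AlgebraicClosure ℚ) ≃
          ↥(Submodule.torsionBy ℤ (JZero p) ((ℓ : ℤ) ^ k)),
        (∀ f g, e (f * g) = e f + e g) ∧
        ∀ (σ : AlgebraicClosure ℚ ≃ₐ[ℚ] AlgebraicClosure ℚ)
          (f g : WithConv (H →ₐ[GaloisRep.ratLocalizedAt ℓ] AlgebraicClosure ℚ)),
          (∀ h : H, g h = σ (f h)) → ((e g : JZero p)) = σ • (e f : JZero p) :=
  s19_of_hasFlatModel p ℓ k (h p ℓ hℓp k)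

/-- **S19 (literal frozen shape) from the function-order target.** -/
theorem s19_of_funOrder (h : S19FunOrderTarget)
    (p : ℕ) [NeZero p] (ℓ : ℕ) [Fact ℓ.Prime] (hℓp : ¬ ℓ ∣ p) (k : ℕ) :
    ∃ (H : Type) (_ : CommRing H) (_ : HopfAlgebra (GaloisRep.ratLocalizedAt ℓ) H),
      Module.Finite (GaloisRep.ratLocalizedAt ℓ) H ∧ Module.Flat (GaloisRep.ratLocalizedAt ℓ) H ∧
      Coalgebra.IsCocomm (GaloisRep.ratLocalizedAt ℓ) H ∧
      ∃ e : WithConv (H →ₐ[GaloisRep.ratLocalizedAt ℓ] AlgebraicClosure ℚ) ≃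
          ↥(Submodule.torsionBy ℤ (JZero p) ((ℓ : ℤ) ^ k)),
        (∀ f g, e (f * g) = e f + e g) ∧
        ∀ (σ : AlgebraicClosure ℚ ≃ₐ[ℚ] AlgebraicClosure ℚ)
          (f g : WithConv (H →ₐ[GaloisRep.ratLocalizedAt ℓ] AlgebraicClosure ℚ)),
          (∀ h : H, g h = σ (f h)) → ((e g : JZero p)) = σ • (e f : JZero p) :=
  s19_of_flatTarget (s19FlatTarget_iff.2 h) p ℓ hℓp k

/-! ### LEVEL helpers -/

section Level

variable {p : ℕ} {X M' : Type} [AddCommGroup X] [AddCommGroup M']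
  {actX : GQ → X → X} {act' : GQ → M' → M'}

/-- An equivariant quotient of a Galois-stable subgroup of a module with a finite flat model has a
finite flat model. -/
theorem HasFlatModel.of_sub_surjective (h : HasFlatModel p X actX) (A : AddSubgroup X)
    (hA : ∀ σ, ∀ x ∈ A, actX σ x ∈ A) (g : A →+ M') (hg : Function.Surjective g)
    (hgσ : ∀ σ (x : A), g ⟨actX σ x, hA σ x x.2⟩ = act' σ (g x)) : HasFlatModel p M' act' := by
  have h1 := h.sub A (fun σ x => ⟨actX σ x, hA σ x x.2⟩) fun _ _ => rfl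
  let φ : (A ⧸ g.ker) ≃+ M' := QuotientAddGroup.quotientKerEquivOfSurjective g hg
  have hφ : ∀ x : A, φ (QuotientAddGroup.mk x) = g x := fun x => rfl
  let actq : GQ → A ⧸ g.ker → A ⧸ g.ker := fun σ q => φ.symm (act' σ (φ q))
  have hq : ∀ σ (x : A), actq σ (QuotientAddGroup.mk x) =
      QuotientAddGroup.mk (⟨actX σ x, hA σ x x.2⟩ : A) := by
    intro σ x
    show φ.symm (act' σ (φ _)) = _
    rw [hφ, ← hgσ, ← hφ, AddEquiv.symm_apply_apply]
  have h2 := h1.quot g.ker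
    (fun σ x hx => by
      rw [AddMonoidHom.mem_ker] at hx ⊢
      rw [hgσ, hx]
      -- `act' σ 0 = 0`: through the function order of the quotient we avoid it; use `hgσ` at `0`
      have h0 := hgσ σ 0
      rw [map_zero] at h0
      rw [← h0]
      have : (⟨actX σ ((0 : A) : X), hA σ _ (0 : A).2⟩ : A) = 0 := by
        obtain ⟨F⟩ := funOrder_of_hasFlatModel h
        exact Subtype.ext (F.act_zero σ)
      rw [this, map_zero]) actq hq
  refine h2.of_equiv φ fun σ q => ?_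
  show φ (φ.symm (act' σ (φ q))) = _
  rw [AddEquiv.apply_symm_apply]

end Level

/-- **Level lowering, abstract form**: `JM`, `JN` abelian groups with distributive `Gal(ℚ̄/ℚ)`-actions,
`g : JM → JN` additive, equivariant, mapping `JM[n']` ONTO `JN[n]`; then a finite flat model of
`JM[n']` gives one of `JN[n]`. -/
theorem hasFlatModel_tAct_of_surjective {p : ℕ} {JM JN : Type} [AddCommGroup JM] [AddCommGroup JN]
    [DistribMulAction GQ JM] [DistribMulAction GQ JN] (n n' : ℤ)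
    (g : JM →+ JN) (hg : ∀ (σ : GQ) (x : JM), g (σ • x) = σ • g x)
    (hsurj : ∀ y : JN, n • y = 0 → ∃ z : JM, n' • z = 0 ∧ g z = y)
    (h : HasFlatModel p ↥(Submodule.torsionBy ℤ JM n') (tAct JM n')) :
    HasFlatModel p ↥(Submodule.torsionBy ℤ JN n) (tAct JN n) := by
  -- the stable subgroup `A = {z ∈ JM[n'] | g z ∈ JN[n]}`
  let A : AddSubgroup ↥(Submodule.torsionBy ℤ JM n') :=
    { carrier := {z | n • g (z : JM) = 0}
      zero_mem' := by
        show n • g ((0 : ↥(Submodule.torsionBy ℤ JM n')) : JM) = 0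
        rw [Submodule.coe_zero, map_zero, smul_zero]
      add_mem' := fun {a b} ha hb => by
        have ha' : n • g (a : JM) = 0 := ha
        have hb' : n • g (b : JM) = 0 := hb
        show n • g ((a + b : ↥(Submodule.torsionBy ℤ JM n')) : JM) = 0
        rw [Submodule.coe_add, map_add, smul_add, ha', hb', add_zero]
      neg_mem' := fun {a} ha => by
        have ha' : n • g (a : JM) = 0 := ha
        show n • g ((-a : ↥(Submodule.torsionBy ℤ JM n')) : JM) = 0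
        rw [Submodule.coe_neg, map_neg, smul_neg, ha', neg_zero] }
  have hA : ∀ σ, ∀ x ∈ A, tAct JM n' σ x ∈ A := by
    intro σ x hx
    have hx' : n • g (x : JM) = 0 := hx
    show n • g (σ • (x : JM)) = 0
    rw [hg, smul_comm, hx', smul_zero]
  let gA : A →+ ↥(Submodule.torsionBy ℤ JN n) :=
    { toFun := fun z => ⟨g ((z : ↥(Submodule.torsionBy ℤ JM n')) : JM),
        (Submodule.mem_torsionBy_iff _ _).2 z.2⟩
      map_zero' := Subtype.ext (by
        show g (((0 : A) : ↥(Submodule.torsionBy ℤ JM n')) : JM) = 0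
        rw [AddSubgroup.coe_zero, Submodule.coe_zero, map_zero])
      map_add' := fun a b => Subtype.ext (by
        show g (((a + b : A) : ↥(Submodule.torsionBy ℤ JM n')) : JM) = g _ + g _
        rw [AddSubgroup.coe_add, Submodule.coe_add, map_add]) }
  refine h.of_sub_surjective A hA gA ?_ ?_
  · rintro ⟨y, hy⟩
    obtain ⟨z, hz, rfl⟩ := hsurj y ((Submodule.mem_torsionBy_iff _ _).1 hy)
    exact ⟨⟨⟨z, (Submodule.mem_torsionBy_iff _ _).2 hz⟩,
      (Submodule.mem_torsionBy_iff _ _).1 hy⟩, rfl⟩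
  · intro σ x
    exact Subtype.ext (hg σ _)

/-- **Level lowering**: if `g : J₀(M) → J₀(N)` is additive, Galois-equivariant and maps
`J₀(M)[ℓ^k']` ONTO `J₀(N)[ℓ^k]` (every `ℓ^k`-torsion point of `J₀(N)` is the image of an
`ℓ^k'`-torsion point of `J₀(M)`), then a finite flat model of `J₀(M)[ℓ^k']` gives one of
`J₀(N)[ℓ^k]`. -/
theorem hasFlatModel_torsion_of_surjective (N M : ℕ) (ℓ k k' : ℕ)
    (g : JZero M →+ JZero N) (hg : ∀ (σ : GQ) (x : JZero M), g (σ • x) = σ • g x)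
    (hsurj : ∀ y : JZero N, ((ℓ : ℤ) ^ k) • y = 0 →
      ∃ z : JZero M, ((ℓ : ℤ) ^ k') • z = 0 ∧ g z = y)
    (h : HasFlatModel ℓ ↥(Submodule.torsionBy ℤ (JZero M) ((ℓ : ℤ) ^ k'))
      (torsionAct M ((ℓ : ℤ) ^ k'))) :
    HasFlatModel ℓ ↥(Submodule.torsionBy ℤ (JZero N) ((ℓ : ℤ) ^ k))
      (torsionAct N ((ℓ : ℤ) ^ k)) :=
  hasFlatModel_tAct_of_surjective ((ℓ : ℤ) ^ k) ((ℓ : ℤ) ^ k') g hg hsurj h

/-- **Level lowering, iso form** (`HasFlatModel.subquotient` at the torsion modules): if `J₀(N)[ℓ^k]`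
is equivariantly isomorphic to `A/B` for Galois-stable subgroups `B ≤ A ≤ (J₀(M)[ℓ^k'])^r`, then a
finite flat model of `J₀(M)[ℓ^k']` gives one of `J₀(N)[ℓ^k]`. -/
theorem hasFlatModel_torsion_of_equiv (N M : ℕ) (ℓ k k' r : ℕ)
    (h : HasFlatModel ℓ ↥(Submodule.torsionBy ℤ (JZero M) ((ℓ : ℤ) ^ k'))
      (torsionAct M ((ℓ : ℤ) ^ k')))
    (A B : AddSubgroup (Fin r → ↥(Submodule.torsionBy ℤ (JZero M) ((ℓ : ℤ) ^ k'))))
    (hA : ∀ σ, ∀ f ∈ A, (fun i => torsionAct M ((ℓ : ℤ) ^ k') σ (f i)) ∈ A)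
    (hB : ∀ σ, ∀ f ∈ B, (fun i => torsionAct M ((ℓ : ℤ) ^ k') σ (f i)) ∈ B)
    (φ : (A ⧸ B.addSubgroupOf A) ≃+ ↥(Submodule.torsionBy ℤ (JZero N) ((ℓ : ℤ) ^ k)))
    (hφ : ∀ σ (f : A),
      φ (QuotientAddGroup.mk ⟨fun i => torsionAct M ((ℓ : ℤ) ^ k') σ (f.1 i), hA σ f.1 f.2⟩) =
        torsionAct N ((ℓ : ℤ) ^ k) σ (φ (QuotientAddGroup.mk f))) :
    HasFlatModel ℓ ↥(Submodule.torsionBy ℤ (JZero N) ((ℓ : ℤ) ^ k))
      (torsionAct N ((ℓ : ℤ) ^ k)) :=
  h.subquotient r A B hA hB φ hφ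

end Fermat.Agent.Flat44
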